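import Mathlib
import Fermat.Agent.MUL.Lib.BadRed.Nodal.RRNodal
import Fermat.Agent.MUL.Lib.GoodRed.Genus

section MergeWrap_Lib_BadRed_Nodal_Deuring2_RRExist -- from Lib/BadRed/Nodal/Deuring2/RRExist.lean

set_option autoImplicit false
set_option linter.style.haveILetI false
set_option linter.unusedSectionVars false

/-!
# Cluster T, WP N4: existence lemmas on ONE curve (pure Riemann-Roch)

* `ValAt.mul`, `ValAt.ord_nonneg`, `ValAt.ord_eq_zero_iff` : calculus of values;
* `rx_exists_avoid` : over an infinite field, a line `x + l • y` avoids finitely many subspaces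
  not containing `y`;
* `exists_interpolation_exact` (L1) : prescribed values at the nodes and EXACT order `-R Q` at
  finitely many other places;
* `finite_bad_combination` (G1) : for all but finitely many `l` the poles of `a + l • a₀` dominate
  the poles of `a` and of `a₀`.
-/

noncomputable section

open AlgebraicCurve

namespace Fermat.Agent.BadRed

open Fermat.Agent.RR

section OneCurve

variable {k F₁ : Type*} [Field k] [Field F₁] [Algebra k F₁]

/-! ### orders -/

theorem rx_ord_smul (Q : Place k F₁) {l : k} (hl : l ≠ 0) (f : F₁) : Q.ord (l • f) = Q.ord f := by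
  rcases eq_or_ne f 0 with rfl | hf
  · rw [smul_zero]
  rw [Algebra.smul_def, Q.ord_mul (by rwa [Ne, map_eq_zero]) hf,
    Fermat.Agent.S24Res.ord_algebraMap, zero_add]

/-- strict ultrametric inequality. -/
theorem rx_ord_add_eq_of_lt (Q : Place k F₁) {f g : F₁} (hf : f ≠ 0) (hg : g ≠ 0)
    (hlt : Q.ord f < Q.ord g) : Q.ord (f + g) = Q.ord f := by
  have hfg : f + g ≠ 0 := by
    intro h
    have h1 : f = -g := eq_neg_of_add_eq_zero_left h
    rw [h1, rn_ord_neg] at hlt
    exact lt_irrefl _ hlt
  have h1 := Fermat.Agent.S24Res.ord_add_ge Q hf hg hfg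
  have h2 := Fermat.Agent.S24Res.ord_add_ge Q hfg (neg_ne_zero.mpr hg)
    (by rwa [add_neg_cancel_right])
  rw [add_neg_cancel_right, rn_ord_neg] at h2
  rw [min_eq_left hlt.le] at h1
  rcases le_total (Q.ord (f + g)) (Q.ord g) with h3 | h3
  · rw [min_eq_left h3] at h2
    omega
  · rw [min_eq_right h3] at h2
    omega

/-! ### values -/

theorem VanAt.ord_nonneg {Q : Place k F₁} {f : F₁} (hf : VanAt Q f) : 0 ≤ Q.ord f := by
  rcases hf with rfl | h
  · rw [Place.ord_zero]
  · exact h.le

theorem VanAt.mul_right {Q : Place k F₁} {f g : F₁} (hf : VanAt Q f) (hg : 0 ≤ Q.ord g) :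
    VanAt Q (f * g) := by
  rcases eq_or_ne f 0 with rfl | hf0
  · left
    rw [zero_mul]
  rcases eq_or_ne g 0 with rfl | hg0
  · left
    rw [mul_zero]
  right
  rw [Q.ord_mul hf0 hg0]
  have := hf.resolve_left hf0
  omega

theorem ValAt.ord_nonneg {Q : Place k F₁} {f : F₁} {c : k} (hf : ValAt Q f c) : 0 ≤ Q.ord f := by
  rcases hf with rfl | h
  · rw [Fermat.Agent.S24Res.ord_algebraMap]
  rcases eq_or_ne f 0 with rfl | hf0
  · rw [Place.ord_zero]
  rcases eq_or_ne c 0 with rfl | hc0
  · rw [map_zero, sub_zero] at h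
    exact h.le
  have hsub : f - algebraMap k F₁ c ≠ 0 := by
    intro h0
    rw [h0, Place.ord_zero] at h
    exact lt_irrefl _ h
  have hc : algebraMap k F₁ c ≠ 0 := by rwa [Ne, map_eq_zero]
  have h1 := Fermat.Agent.S24Res.ord_add_ge Q hsub hc (by rwa [sub_add_cancel])
  rw [sub_add_cancel, Fermat.Agent.S24Res.ord_algebraMap] at h1
  have := min_le_iff.mp h1
  omega

/-- values multiply. -/
theorem ValAt.mul {Q : Place k F₁} {f g : F₁} {c d : k} (hf : ValAt Q f c) (hg : ValAt Q g d) :
    ValAt Q (f * g) (c * d) := by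
  have hg0 := hg.ord_nonneg
  rw [valAt_iff_vanAt] at hf hg ⊢
  have h1 : VanAt Q ((f - algebraMap k F₁ c) * g) := hf.mul_right hg0
  have h2 : VanAt Q (c • (g - algebraMap k F₁ d)) := hg.smul c
  have h3 := h1.add h2
  have he : (f - algebraMap k F₁ c) * g + c • (g - algebraMap k F₁ d) =
      f * g - algebraMap k F₁ (c * d) := by
    rw [Algebra.smul_def, map_mul]
    ring
  rwa [he] at h3

/-- value `≠ 0` iff order `0`. -/
theorem ValAt.ord_eq_zero_iff {Q : Place k F₁} {f : F₁} {c : k} (hf : ValAt Q f c)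
    (hf0 : f ≠ 0) : Q.ord f = 0 ↔ c ≠ 0 := by
  constructor
  · rintro h rfl
    have := ((valAt_zero_right_iff Q f).mp hf).resolve_left hf0
    omega
  · intro hc
    rcases hf with rfl | h
    · rw [Fermat.Agent.S24Res.ord_algebraMap]
    have hsub : f - algebraMap k F₁ c ≠ 0 := by
      intro h0
      rw [h0, Place.ord_zero] at h
      exact lt_irrefl _ h
    have hc' : algebraMap k F₁ c ≠ 0 := by rwa [Ne, map_eq_zero]
    have h1 := rx_ord_add_eq_of_lt Q hc' hsub
      (by rw [Fermat.Agent.S24Res.ord_algebraMap]; exact h)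
    rw [add_sub_cancel, Fermat.Agent.S24Res.ord_algebraMap] at h1
    exact h1

/-! ### avoiding finitely many subspaces on a line -/

/-- over an infinite field, a line `x + l • y` avoids finitely many subspaces not
containing `y`. -/
theorem rx_exists_avoid [Infinite k] {V : Type*} [AddCommGroup V] [Module k V] {J : Type*}
    [Finite J] (W : J → Submodule k V) (x y : V) (hy : ∀ j, y ∉ W j) :
    ∃ l : k, ∀ j, x + l • y ∉ W j := by
  have hsub : ∀ j, {l : k | x + l • y ∈ W j}.Subsingleton := by
    intro j l hl l' hl'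
    by_contra hne
    apply hy j
    have h1 : (x + l • y) - (x + l' • y) ∈ W j := (W j).sub_mem hl hl'
    have h2 : (x + l • y) - (x + l' • y) = (l - l') • y := by
      rw [sub_smul]
      abel
    rw [h2] at h1
    have h3 := (W j).smul_mem (l - l')⁻¹ h1
    rwa [smul_smul, inv_mul_cancel₀ (sub_ne_zero.mpr hne), one_smul] at h3
  have hfin : (⋃ j, {l : k | x + l • y ∈ W j}).Finite :=
    Set.finite_iUnion fun j => (hsub j).finite
  obtain ⟨l, hl⟩ := hfin.exists_notMem
  refine ⟨l, fun j hj => hl ?_⟩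
  exact Set.mem_iUnion.mpr ⟨j, hj⟩

/-- an element of `L(R)` outside `L(R - Q)` has exact order `-R Q` at `Q`. -/
theorem rx_ord_eq_of_notMem {R : Divisor k F₁} {Q : Place k F₁} {a : F₁}
    (ha : a ∈ riemannRochSpace R) (hn : a ∉ riemannRochSpace (R - Finsupp.single Q 1)) :
    a ≠ 0 ∧ Q.ord a = -R Q := by
  classical
  have ha0 : a ≠ 0 := by
    rintro rfl
    exact hn (Submodule.zero_mem _)
  refine ⟨ha0, ?_⟩
  have h1 := ((mem_riemannRochSpace_iff.mp ha) Q).resolve_left ha0
  by_contra hne
  apply hn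
  rw [mem_riemannRochSpace_iff]
  intro v
  right
  have hv := ((mem_riemannRochSpace_iff.mp ha) v).resolve_left ha0
  rw [Finsupp.sub_apply, Finsupp.single_apply]
  split_ifs with hQv
  · subst hQv
    omega
  · omega

/-- an element of `L(R)` of exact order `-R Q` at `Q` is not in `L(R - Q)`. -/
theorem rx_notMem_of_ord_eq {R : Divisor k F₁} {Q : Place k F₁} {a : F₁} (ha0 : a ≠ 0)
    (ha : Q.ord a = -R Q) : a ∉ riemannRochSpace (R - Finsupp.single Q 1) := by
  intro hmem
  have h1 := ((mem_riemannRochSpace_iff.mp hmem) Q).resolve_left ha0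
  rw [Finsupp.sub_apply, Finsupp.single_eq_same] at h1
  omega

/-- `L(R - Q) ≠ L(R)` if `deg R > 2 g - 1`. -/
theorem rx_exists_exact (h₁ : IsRRField k F₁) (R : Divisor k F₁) (Q : Place k F₁)
    (hdeg : 2 * (genusFF k F₁ : ℤ) - 2 < Divisor.degree R - 1) :
    ∃ a ∈ riemannRochSpace R, a ∉ riemannRochSpace (R - Finsupp.single Q 1) := by
  have hd : Divisor.degree (R - Finsupp.single Q 1) = Divisor.degree R - 1 := by
    have := degree_add_single h₁ (R - Finsupp.single Q 1) Q
    rw [sub_add_cancel] at this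
    omega
  have hell : (ell R : ℤ) = Divisor.degree R + 1 - (genusFF k F₁ : ℤ) :=
    ell_of_degree_gt h₁ (by omega)
  have hell' : (ell (R - Finsupp.single Q 1) : ℤ) =
      Divisor.degree (R - Finsupp.single Q 1) + 1 - (genusFF k F₁ : ℤ) :=
    ell_of_degree_gt h₁ (by rw [hd]; omega)
  have hnle : ¬ riemannRochSpace R ≤ riemannRochSpace (R - Finsupp.single Q 1) := by
    intro hle
    have := finite_riemannRochSpace h₁ (R - Finsupp.single Q 1)
    have := Submodule.finrank_mono hle
    rw [← ell_def, ← ell_def] at this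
    have : (ell R : ℤ) ≤ (ell (R - Finsupp.single Q 1) : ℤ) := by exact_mod_cast this
    rw [hell, hell', hd] at this
    omega
  exact SetLike.not_le_iff_exists.mp hnle

/-- (L1) interpolation at the nodes + EXACT order at finitely many other places. -/
theorem exists_interpolation_exact {ι : Type*} [Fintype ι] [Infinite k] (h₁ : IsRRField k F₁)
    (s₁ : ι → Place k F₁) (hs₁ : Function.Injective s₁) (R : Divisor k F₁)
    (hR : ∀ i, R (s₁ i) = 0)
    (T : Finset (Place k F₁)) (hT : ∀ Q ∈ T, ∀ i, Q ≠ s₁ i)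
    (hdeg : 2 * (genusFF k F₁ : ℤ) - 2 < Divisor.degree R - Fintype.card ι - 1) (c : ι → k) :
    ∃ a ∈ riemannRochSpace R, a ≠ 0 ∧ (∀ i, ValAt (s₁ i) a (c i)) ∧ ∀ Q ∈ T, Q.ord a = -R Q := by
  classical
  obtain ⟨a₁, ha₁, hv₁⟩ := exists_interpolation h₁ s₁ hs₁ R hR (by omega) c
  set N : Finset (Place k F₁) := Finset.univ.image s₁ with hN
  have hNcard : N.card = Fintype.card ι := by
    rw [hN, Finset.card_image_of_injective _ hs₁, Finset.card_univ]
  have hNR : ∀ Q ∈ N, R Q = 0 := by
    intro Q hQ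
    obtain ⟨i, -, rfl⟩ := Finset.mem_image.mp hQ
    exact hR i
  have hmemN : ∀ i, s₁ i ∈ N := fun i => Finset.mem_image_of_mem s₁ (Finset.mem_univ i)
  set R' : Divisor k F₁ := R - sumPlaces N with hR'
  have hdR' : Divisor.degree R' = Divisor.degree R - Fintype.card ι := by
    rw [hR', map_sub, degree_sumPlaces h₁, hNcard]
  have hle : R' ≤ R := by
    rw [hR', Finsupp.le_def]
    intro v
    rw [Finsupp.sub_apply]
    by_cases hv : v ∈ N
    · rw [sumPlaces_apply_of_mem hv]
      omega
    · rw [sumPlaces_apply_of_not_mem hv]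
      omega
  have hR'T : ∀ Q ∈ T, R' Q = R Q := by
    intro Q hQ
    have hQN : Q ∉ N := by
      intro hQN
      obtain ⟨i, -, hi⟩ := Finset.mem_image.mp hQN
      exact hT Q hQ i hi.symm
    rw [hR', Finsupp.sub_apply, sumPlaces_apply_of_not_mem hQN, sub_zero]
  -- for every `Q ∈ T` an element of `L(R')` of exact order at `Q`
  have hex : ∀ Q : T, ∃ u ∈ riemannRochSpace R',
      u ∉ riemannRochSpace (R' - Finsupp.single Q.1 1) := fun Q =>
    rx_exists_exact h₁ R' Q.1 (by rw [hdR']; omega)
  choose u hu hun using hex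
  -- a nonzero element of `L(R')`
  have hell : (ell R' : ℤ) = Divisor.degree R' + 1 - (genusFF k F₁ : ℤ) :=
    ell_of_degree_gt h₁ (by rw [hdR']; omega)
  have hfin := finite_riemannRochSpace h₁ R'
  have hpos : 0 < Module.finrank k (riemannRochSpace R') := by
    rw [← ell_def]
    have : (0 : ℤ) < (ell R' : ℤ) := by
      rw [hell, hdR']
      have := Int.natCast_nonneg (genusFF k F₁)
      omega
    exact_mod_cast this
  obtain ⟨x₀, hx₀⟩ := Module.finrank_pos_iff_exists_ne_zero.mp hpos
  -- `a₂ ∈ L(R')`, nonzero, of exact order at all `Q ∈ T`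
  let p : Option T → Submodule k (riemannRochSpace R') := fun i =>
    match i with
    | none => ⊥
    | some Q => (riemannRochSpace (R' - Finsupp.single Q.1 1)).comap (riemannRochSpace R').subtype
  have hp : ∀ i, p i ≠ ⊤ := by
    intro i
    match i with
    | none =>
      intro htop
      have : x₀ ∈ (⊥ : Submodule k (riemannRochSpace R')) := by
        change x₀ ∈ p none
        rw [htop]; trivial
      rw [Submodule.mem_bot] at this
      exact hx₀ this
    | some Q =>
      intro htop
      have : (⟨u Q, hu Q⟩ : riemannRochSpace R') ∈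
          (riemannRochSpace (R' - Finsupp.single Q.1 1)).comap (riemannRochSpace R').subtype := by
        change (⟨u Q, hu Q⟩ : riemannRochSpace R') ∈ p (some Q)
        rw [htop]; trivial
      rw [Submodule.mem_comap] at this
      exact hun Q this
  obtain ⟨a₂, ha₂⟩ := Submodule.exists_forall_notMem_of_forall_ne_top p hp
  have ha₂0 : (a₂ : F₁) ≠ 0 := by
    intro h0
    apply ha₂ none
    change a₂ ∈ (⊥ : Submodule k (riemannRochSpace R'))
    rw [Submodule.mem_bot]
    exact Subtype.ext h0
  have ha₂R : (a₂ : F₁) ∈ riemannRochSpace R := riemannRochSpace_mono hle a₂.2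
  have ha₂ord : ∀ Q ∈ T, Q.ord (a₂ : F₁) = -R Q := by
    intro Q hQ
    have hn : (a₂ : F₁) ∉ riemannRochSpace (R' - Finsupp.single Q 1) := by
      intro hmem
      apply ha₂ (some ⟨Q, hQ⟩)
      change a₂ ∈ (riemannRochSpace (R' - Finsupp.single Q 1)).comap
        (riemannRochSpace R').subtype
      rw [Submodule.mem_comap]
      exact hmem
    rw [(rx_ord_eq_of_notMem a₂.2 hn).2, hR'T Q hQ]
  have ha₂van : ∀ i, VanAt (s₁ i) (a₂ : F₁) := by
    intro i
    have := ((mem_riemannRochSpace_sub_sumPlaces_iff hNR (a₂ : F₁)).mp a₂.2).2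
    exact this (s₁ i) (hmemN i)
  -- the generic combination
  let W : Option T → Submodule k F₁ := fun i =>
    match i with
    | none => ⊥
    | some Q => riemannRochSpace (R - Finsupp.single Q.1 1)
  have hW : ∀ i, (a₂ : F₁) ∉ W i := by
    intro i
    match i with
    | none =>
      intro hmem
      change (a₂ : F₁) ∈ (⊥ : Submodule k F₁) at hmem
      rw [Submodule.mem_bot] at hmem
      exact ha₂0 hmem
    | some Q =>
      exact rx_notMem_of_ord_eq ha₂0 (ha₂ord Q.1 Q.2)
  obtain ⟨l, hl⟩ := rx_exists_avoid W a₁ (a₂ : F₁) hW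
  have haR : a₁ + l • (a₂ : F₁) ∈ riemannRochSpace R :=
    Submodule.add_mem _ ha₁ (Submodule.smul_mem _ l ha₂R)
  refine ⟨a₁ + l • (a₂ : F₁), haR, ?_, fun i => ?_, fun Q hQ => ?_⟩
  · intro h0
    apply hl none
    change a₁ + l • (a₂ : F₁) ∈ (⊥ : Submodule k F₁)
    rw [Submodule.mem_bot]
    exact h0
  · have h1 : ValAt (s₁ i) (l • (a₂ : F₁)) (l * 0) :=
      ((valAt_zero_right_iff _ _).mpr (ha₂van i)).smul l
    have h2 := (hv₁ i).add h1
    rwa [mul_zero, add_zero] at h2
  · exact (rx_ord_eq_of_notMem haR (hl (some ⟨Q, hQ⟩))).2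

/-! ### generic combinations -/

/-- (G1) generic combination: for all but finitely many `l`, the poles of `a + l • a₀` dominate
the poles of `a` and of `a₀`. -/
theorem finite_bad_combination (h₁ : IsRRField k F₁) (a a₀ : F₁) :
    {l : k | ¬ (poleDiv h₁ a ≤ poleDiv h₁ (a + l • a₀) ∧
      poleDiv h₁ a₀ ≤ poleDiv h₁ (a + l • a₀))}.Finite := by
  classical
  set S : Finset (Place k F₁) := (poleDiv h₁ a).support ∪ (poleDiv h₁ a₀).support with hS
  -- the bad set at one place
  have key : ∀ Q ∈ S, {l : k | ¬ (poleDiv h₁ a Q ≤ poleDiv h₁ (a + l • a₀) Q ∧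
      poleDiv h₁ a₀ Q ≤ poleDiv h₁ (a + l • a₀) Q)}.Subsingleton := by
    intro Q hQ l hl l' hl'
    simp only [Set.mem_ofPred_eq] at hl hl'
    by_contra hne
    set n : ℤ := max (poleDiv h₁ a Q) (poleDiv h₁ a₀ Q) with hn
    have hnpos : 0 < n := by
      rw [hS, Finset.mem_union, Finsupp.mem_support_iff, Finsupp.mem_support_iff] at hQ
      have h1 : 0 ≤ poleDiv h₁ a Q := by
        rw [poleDiv_apply]; exact le_max_right _ _
      have h2 : 0 ≤ poleDiv h₁ a₀ Q := by
        rw [poleDiv_apply]; exact le_max_right _ _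
      rcases hQ with h | h
      · exact lt_of_lt_of_le (lt_of_le_of_ne h1 (Ne.symm h)) (le_max_left _ _)
      · exact lt_of_lt_of_le (lt_of_le_of_ne h2 (Ne.symm h)) (le_max_right _ _)
    -- `ord (a + l a₀) > -n` for bad `l`
    have hbad : ∀ m : k, ¬ (poleDiv h₁ a Q ≤ poleDiv h₁ (a + m • a₀) Q ∧
        poleDiv h₁ a₀ Q ≤ poleDiv h₁ (a + m • a₀) Q) → -n < Q.ord (a + m • a₀) := by
      intro m hm
      have h1 : poleDiv h₁ (a + m • a₀) Q < n := by
        by_contra hge
        push Not at hge
        exact hm ⟨le_trans (le_max_left _ _) hge, le_trans (le_max_right _ _) hge⟩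
      rw [poleDiv_apply] at h1
      have := le_max_left (-(Q.ord (a + m • a₀))) 0
      omega
    have h1 := hbad l hl
    have h2 := hbad l' hl'
    -- the difference
    have hd : (a + l • a₀) - (a + l' • a₀) = (l - l') • a₀ := by
      rw [sub_smul]
      abel
    have hll : l - l' ≠ 0 := sub_ne_zero.mpr hne
    -- `ord a₀ > -n`
    have h3 : -n < Q.ord a₀ := by
      rcases eq_or_ne a₀ 0 with rfl | ha₀
      · rw [Place.ord_zero]; omega
      have hd0 : (a + l • a₀) - (a + l' • a₀) ≠ 0 := by
        rw [hd]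
        exact smul_ne_zero hll ha₀
      have hord : Q.ord ((a + l • a₀) - (a + l' • a₀)) = Q.ord a₀ := by
        rw [hd, rx_ord_smul Q hll]
      rcases eq_or_ne (a + l • a₀) 0 with h0 | h0
      · rw [h0, zero_sub, rn_ord_neg] at hord
        omega
      rcases eq_or_ne (a + l' • a₀) 0 with h0' | h0'
      · rw [h0', sub_zero] at hord
        omega
      have := Fermat.Agent.S24Res.ord_add_ge Q h0 (neg_ne_zero.mpr h0')
        (by rwa [← sub_eq_add_neg])
      rw [← sub_eq_add_neg, rn_ord_neg, hord] at this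
      have := min_le_iff.mp this
      omega
    -- `ord a > -n`
    have h4 : -n < Q.ord a := by
      rcases eq_or_ne a 0 with rfl | ha
      · rw [Place.ord_zero]; omega
      rcases eq_or_ne a₀ 0 with rfl | ha₀
      · rwa [smul_zero, add_zero] at h1
      rcases eq_or_ne l 0 with rfl | hl0
      · rwa [zero_smul, add_zero] at h1
      have hla₀ : l • a₀ ≠ 0 := smul_ne_zero hl0 ha₀
      have hordl : Q.ord (-(l • a₀)) = Q.ord a₀ := by
        rw [rn_ord_neg, rx_ord_smul Q hl0]
      rcases eq_or_ne (a + l • a₀) 0 with h0 | h0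
      · have : a = -(l • a₀) := eq_neg_of_add_eq_zero_left h0
        rw [this, hordl]
        exact h3
      have := Fermat.Agent.S24Res.ord_add_ge Q h0 (neg_ne_zero.mpr hla₀)
        (by rwa [add_neg_cancel_right])
      rw [add_neg_cancel_right, hordl] at this
      have := min_le_iff.mp this
      omega
    -- contradiction with the definition of `n`
    have h5 : poleDiv h₁ a Q < n := by
      rw [poleDiv_apply]
      exact max_lt (by omega) hnpos
    have h6 : poleDiv h₁ a₀ Q < n := by
      rw [poleDiv_apply]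
      exact max_lt (by omega) hnpos
    have := max_lt h5 h6
    rw [← hn] at this
    exact lt_irrefl _ this
  refine Set.Finite.subset (Set.Finite.biUnion S.finite_toSet fun Q hQ => (key Q hQ).finite) ?_
  intro l hl
  simp only [Set.mem_ofPred_eq] at hl
  -- a place where the inequality fails
  have hex : ∃ Q, ¬ (poleDiv h₁ a Q ≤ poleDiv h₁ (a + l • a₀) Q ∧
      poleDiv h₁ a₀ Q ≤ poleDiv h₁ (a + l • a₀) Q) := by
    by_contra hall
    push Not at hall
    apply hl
    constructor
    · rw [Finsupp.le_def]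
      exact fun Q => (hall Q).1
    · rw [Finsupp.le_def]
      exact fun Q => (hall Q).2
  obtain ⟨Q, hQ⟩ := hex
  have hQS : Q ∈ S := by
    by_contra hQS
    rw [hS, Finset.mem_union, not_or, Finsupp.notMem_support_iff,
      Finsupp.notMem_support_iff] at hQS
    apply hQ
    rw [hQS.1, hQS.2]
    have : 0 ≤ poleDiv h₁ (a + l • a₀) Q := by
      rw [poleDiv_apply]; exact le_max_right _ _
    exact ⟨this, this⟩
  exact Set.mem_biUnion (Finset.mem_coe.mpr hQS) hQ

end OneCurve

end Fermat.Agent.BadRed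
end
end MergeWrap_Lib_BadRed_Nodal_Deuring2_RRExist
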