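import Mathlib
import Fermat.Agent.MUL.Lib.BadRed.Nodal.Deuring2.S1
import Fermat.Agent.MUL.Lib.BadRed.Nodal.NSBuildLift

section MergeWrap_Lib_BadRed_Nodal_Deuring2_TypeDef -- from Lib/BadRed/Nodal/Deuring2/TypeDef.lean

set_option autoImplicit false

/-!
# Cluster T, WP N4: the interface between `Type.lean` (S2, S3) and `Push.lean` / `Main.lean`

`NodalType N` : a reduction map `r` of the places of `F` for the seed `N`, together with the
existence statements which characterise it (all of them are consequences of S2 / S3 of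
`NOTES/blueprint-T-N4.md`).  Notation: `𝔏(D) = L(D) ∩ O₁ ∩ O₂` (`NodalCore.IsInt`).

For a place `P` with `r P = some (inl Q)` ("`P` reduces to the smooth point `Q` of the first
component"):
* `pole₁` : some `f ∈ 𝔏(m D₀ + P)` has a reduction with a pole of order `m R₁(Q) + 1` at `Q`;
* `zero₁` : some `f ∈ 𝔏(m D₀ - P)` has a reduction of order `- m R₁(Q) + 1` at `Q`.
For a place `P` with `r P ≠ some (inl Q)`, `Q` not a node:
* `unit₁` : some `f ∈ 𝔏(m D₀ - P)` has a reduction of exact order `- m R₁(Q)` at `Q`.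
For an ordinary place `P` (`r P = some X`) and a node `i`:
* `node_unit` : some `f ∈ 𝔏(m D₀ - P)` has reductions with the value `1` at the node `i`.
* `supp` : the places of `supp D₀` reduce into `supp R₁ ∪ supp R₂`.

These properties determine `r` (`NodalType.r_unique`, in `Main.lean`).
-/

noncomputable section

open AlgebraicCurve Fermat.Agent.RR Fermat.Agent.Deuring

namespace Fermat.Agent.BadRed

variable {K F k Fk₁ Fk₂ : Type*} [Field K] [Field F] [Algebra K F]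
  [Field k] [Field Fk₁] [Algebra k Fk₁] [Field Fk₂] [Algebra k Fk₂] {ι : Type*} [Fintype ι]

/-- The reduction map of places attached to a seed, with its characteristic properties. -/
structure NodalType (N : NodalSeed K F k Fk₁ Fk₂ ι) where
  /-- reduction of places -/
  r : Place K F → Option (Place k Fk₁ ⊕ Place k Fk₂)
  r_ne_node₁ : ∀ P i, r P ≠ some (Sum.inl (N.s₁ i))
  r_ne_node₂ : ∀ P i, r P ≠ some (Sum.inr (N.s₂ i))
  pole₁ : ∀ P Q, r P = some (Sum.inl Q) → ∃ (m : ℕ) (f : F),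
    N.toNodalCore.IsInt (m • N.D₀ + Finsupp.single P 1) f ∧ N.S₁.red f ≠ 0 ∧
      Q.ord (N.S₁.red f) = -((m • N.R₁) Q) - 1
  pole₂ : ∀ P Q, r P = some (Sum.inr Q) → ∃ (m : ℕ) (f : F),
    N.toNodalCore.IsInt (m • N.D₀ + Finsupp.single P 1) f ∧ N.S₂.red f ≠ 0 ∧
      Q.ord (N.S₂.red f) = -((m • N.R₂) Q) - 1
  zero₁ : ∀ P Q, r P = some (Sum.inl Q) → ∃ (m : ℕ) (f : F),
    N.toNodalCore.IsInt (m • N.D₀ - Finsupp.single P 1) f ∧ N.S₁.red f ≠ 0 ∧
      Q.ord (N.S₁.red f) = -((m • N.R₁) Q) + 1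
  zero₂ : ∀ P Q, r P = some (Sum.inr Q) → ∃ (m : ℕ) (f : F),
    N.toNodalCore.IsInt (m • N.D₀ - Finsupp.single P 1) f ∧ N.S₂.red f ≠ 0 ∧
      Q.ord (N.S₂.red f) = -((m • N.R₂) Q) + 1
  unit₁ : ∀ P Q, (∀ i, Q ≠ N.s₁ i) → r P ≠ some (Sum.inl Q) → ∃ (m : ℕ) (f : F),
    N.toNodalCore.IsInt (m • N.D₀ - Finsupp.single P 1) f ∧ N.S₁.red f ≠ 0 ∧
      Q.ord (N.S₁.red f) = -((m • N.R₁) Q)
  unit₂ : ∀ P Q, (∀ i, Q ≠ N.s₂ i) → r P ≠ some (Sum.inr Q) → ∃ (m : ℕ) (f : F),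
    N.toNodalCore.IsInt (m • N.D₀ - Finsupp.single P 1) f ∧ N.S₂.red f ≠ 0 ∧
      Q.ord (N.S₂.red f) = -((m • N.R₂) Q)
  node_unit : ∀ P X, r P = some X → ∀ i, ∃ (m : ℕ) (f : F),
    N.toNodalCore.IsInt (m • N.D₀ - Finsupp.single P 1) f ∧
      ValAt (N.s₁ i) (N.S₁.red f) 1 ∧ ValAt (N.s₂ i) (N.S₂.red f) 1
  supp : ∀ P, N.D₀ P ≠ 0 →
    (∃ Q, r P = some (Sum.inl Q) ∧ N.R₁ Q ≠ 0) ∨ (∃ Q, r P = some (Sum.inr Q) ∧ N.R₂ Q ≠ 0)

end Fermat.Agent.BadRed
end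
end MergeWrap_Lib_BadRed_Nodal_Deuring2_TypeDef
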