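import Mathlib
import Fermat.Agent.MUL.Lib.BadRed.Nodal.Deuring2.TypeA
import Fermat.Agent.MUL.Lib.BadRed.Mod.SeedNodeC

section MergeWrap_Lib_BadRed_Nodal_Deuring2_TypeDual -- from Lib/BadRed/Nodal/Deuring2/TypeDual.lean

set_option autoImplicit false
set_option linter.style.haveILetI false
set_option linter.unusedSectionVars false

/-!
# Cluster T, WP N4, step S3: the DUAL characterisation of the type of a place

Everything is stated on WITNESSES (no reduction map `r`).  For a place `P` of `F`: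

* a witness of type (1) at `Q` is `f ∈ 𝔏(m₁ D₀ + P)` with `red₁ f ≠ 0`,
  `ord_Q (red₁ f) = - m₁ R₁(Q) - 1`;
* a witness of type (N) is `f ∈ 𝔏(m₁ D₀ + P)` with `red f ∈ L(m₁ R₁) × L(m₁ R₂)`,
  `red f ∉ nodalRR (m₁ R₁) (m₁ R₂)`.

Results (`m ≥ N.m₁`):
* `td_le₁`, `td_eq₁` : type (1) at `Q` ⇒ `V(m D₀ - P) = nodalRR (m R₁ - Q) (m R₂)`;
* `td_ne_node₁` : type (1) at `Q` ⇒ `Q` is not a node;
* `td_zero₁`, `td_unit₁₁`, `td_unit₁₂`, `td_node_unit₁` : the existence statements of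
  `TypeDef.lean` for a place of type (1);
* `td_eqN`, `td_unitN₁`, `td_unitN₂` : type (N);
* `td_excl₁` : a pole witness and a unit witness at the same `Q` exclude each other; hence
  `td_unique₁₁`, `td_not₁₂`, `td_not₁N`;
* `td_supp₁`, `td_suppN` : the places of `supp D₀`;
* the same for the second component (`₂`), by `NodalSeed.swap`.
-/

noncomputable section

open AlgebraicCurve Fermat.Agent.RR Fermat.Agent.Deuring

namespace Fermat.Agent.BadRed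

variable {K F k Fk₁ Fk₂ : Type*} [Field K] [Field F] [Algebra K F]
  [Field k] [Field Fk₁] [Algebra k Fk₁] [Field Fk₂] [Algebra k Fk₂]

/-! ### generalities -/

section General

variable {k' F' : Type*} [Field k'] [Field F'] [Algebra k' F']

theorem td_sub_single_le (D : Divisor k' F') (Q : Place k' F') :
    D - Finsupp.single Q 1 ≤ D := by
  classical
  rw [Finsupp.le_def]
  intro v
  rw [Finsupp.sub_apply, Finsupp.single_apply]
  split_ifs <;> omega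

/-- membership in `L(D - Q)`. -/
theorem td_mem_sub_single {D : Divisor k' F'} {Q : Place k' F'} {a : F'}
    (ha : a ∈ riemannRochSpace D) (hQ : a = 0 ∨ -(D Q) + 1 ≤ Q.ord a) :
    a ∈ riemannRochSpace (D - Finsupp.single Q 1) := by
  classical
  rw [mem_riemannRochSpace_iff] at ha ⊢
  intro v
  rcases eq_or_ne a 0 with h0 | h0
  · exact Or.inl h0
  right
  have hv := (ha v).resolve_left h0
  rw [Finsupp.sub_apply, Finsupp.single_apply]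
  split_ifs with hQv
  · subst hQv
    have := hQ.resolve_left h0
    omega
  · omega

theorem td_one_mem {D : Divisor k' F'} (hD : 0 ≤ D) : (1 : F') ∈ riemannRochSpace D := by
  rw [mem_riemannRochSpace_iff]
  intro v
  right
  rw [Place.ord_one]
  have := (Finsupp.le_def.mp hD) v
  simp only [Finsupp.coe_zero, Pi.zero_apply] at this
  omega

theorem td_valAt_one (Q : Place k' F') : ValAt Q (1 : F') (1 : k') :=
  Or.inl (map_one _).symm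

variable {ι : Type*}

theorem td_nodalRR_mono (s₁ : ι → Place k Fk₁) (s₂ : ι → Place k Fk₂) {R₁ R₁' : Divisor k Fk₁}
    {R₂ R₂' : Divisor k Fk₂} (h₁ : R₁ ≤ R₁') (h₂ : R₂ ≤ R₂') :
    nodalRR s₁ s₂ R₁ R₂ ≤ nodalRR s₁ s₂ R₁' R₂' :=
  fun _ h => ⟨riemannRochSpace_mono h₁ h.1, riemannRochSpace_mono h₂ h.2.1, h.2.2⟩

end General

variable {ι : Type*} [Fintype ι] (N : NodalSeed K F k Fk₁ Fk₂ ι)

/-! ### products with a witness -/

theorem NodalSeed.td_smul_add_apply₁ (m₁ m : ℕ) (Q : Place k Fk₁) :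
    ((m₁ + m) • N.R₁) Q = (m₁ • N.R₁) Q + (m • N.R₁) Q := by
  rw [add_smul, Finsupp.add_apply]

/-- the reduction of the product of `f ∈ 𝔏(m₁ D₀ + P)` and `g ∈ 𝔏(m D₀ - P)`. -/
theorem NodalSeed.td_mul_seed {m₁ m : ℕ} {P : Place K F} {f g : F}
    (hf : N.toNodalCore.IsInt (m₁ • N.D₀ + Finsupp.single P 1) f)
    (hg : N.toNodalCore.IsInt (m • N.D₀ - Finsupp.single P 1) g) :
    ((N.S₁.red f * N.S₁.red g, N.S₂.red f * N.S₂.red g) : Fk₁ × Fk₂) ∈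
      nodalRR N.s₁ N.s₂ ((m₁ + m) • N.R₁) ((m₁ + m) • N.R₂) := by
  have h := NodalCore.IsInt.mul N.toNodalCore hf hg
  have hD : m₁ • N.D₀ + Finsupp.single P 1 + (m • N.D₀ - Finsupp.single P 1) =
      (m₁ + m) • N.D₀ := by
    rw [add_smul]
    abel
  rw [hD] at h
  have := N.seed (m₁ + m) (f * g) h.1 h.2.1 h.2.2
  rwa [N.S₁.red_mul hf.2.1 hg.2.1, N.S₂.red_mul hf.2.2 hg.2.2] at this

theorem NodalSeed.td_isInt_of_sub {m : ℕ} {P : Place K F} {g : F}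
    (hg : N.toNodalCore.IsInt (m • N.D₀ - Finsupp.single P 1) g) :
    N.toNodalCore.IsInt (m • N.D₀) g :=
  ⟨riemannRochSpace_mono (td_sub_single_le _ P) hg.1, hg.2.1, hg.2.2⟩

theorem NodalSeed.td_seed_of_sub {m : ℕ} {P : Place K F} {g : F}
    (hg : N.toNodalCore.IsInt (m • N.D₀ - Finsupp.single P 1) g) :
    ((N.S₁.red g, N.S₂.red g) : Fk₁ × Fk₂) ∈ nodalRR N.s₁ N.s₂ (m • N.R₁) (m • N.R₂) :=
  N.seed m g (N.td_isInt_of_sub hg).1 hg.2.1 hg.2.2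

/-- lifting an element of `V(m D₀ - P)`. -/
theorem NodalSeed.td_lift {D : Divisor K F} {a : Fk₁} {b : Fk₂}
    (hab : (a, b) ∈ N.toNodalCore.V D) :
    ∃ g : F, N.toNodalCore.IsInt D g ∧ N.S₁.red g = a ∧ N.S₂.red g = b := by
  obtain ⟨g, hg, hge⟩ := (N.toNodalCore.mem_V_iff _).mp hab
  rw [N.toNodalCore.red₂_def] at hge
  exact ⟨g, hg, congrArg Prod.fst hge, congrArg Prod.snd hge⟩

/-! ### the dual of a pole witness -/

/-- **S3, inclusion**: if `P` has a witness of type (1) at `Q`, then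
`V(m D₀ - P) ⊂ nodalRR (m R₁ - Q) (m R₂)`, for every `m`. -/
theorem NodalSeed.td_le₁ {m₁ : ℕ} {P : Place K F} {Q : Place k Fk₁} {f : F}
    (hf : N.toNodalCore.IsInt (m₁ • N.D₀ + Finsupp.single P 1) f) (hne : N.S₁.red f ≠ 0)
    (hord : Q.ord (N.S₁.red f) = -((m₁ • N.R₁) Q) - 1) (m : ℕ) :
    N.toNodalCore.V (m • N.D₀ - Finsupp.single P 1) ≤
      nodalRR N.s₁ N.s₂ (m • N.R₁ - Finsupp.single Q 1) (m • N.R₂) := by
  intro y hy
  obtain ⟨g, hg, rfl⟩ := (N.toNodalCore.mem_V_iff _).mp hy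
  rw [N.toNodalCore.red₂_def]
  have hseed := N.td_seed_of_sub hg
  refine ⟨td_mem_sub_single hseed.1 ?_, hseed.2.1, hseed.2.2⟩
  show N.S₁.red g = 0 ∨ -((m • N.R₁) Q) + 1 ≤ Q.ord (N.S₁.red g)
  rcases eq_or_ne (N.S₁.red g) 0 with h0 | h0
  · exact Or.inl h0
  right
  have hprod := (N.td_mul_seed hf hg).1
  have hne' : N.S₁.red f * N.S₁.red g ≠ 0 := mul_ne_zero hne h0
  have := ((mem_riemannRochSpace_iff.mp hprod) Q).resolve_left hne'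
  rw [Q.ord_mul hne h0, N.td_smul_add_apply₁, hord] at this
  omega

/-- `dim V(m D₀ - P) + 1 = dim nodalRR (m R₁) (m R₂)`. -/
theorem NodalSeed.td_finrank_V_sub {m : ℕ} (hm : N.m₁ ≤ m) (P : Place K F) :
    Module.finrank k (N.toNodalCore.V (m • N.D₀ - Finsupp.single P 1)) + 1 =
      Module.finrank k (nodalRR N.s₁ N.s₂ (m • N.R₁) (m • N.R₂)) := by
  rw [← N.V_eq (N.m₀_le_of_m₁_le hm), N.toNodalCore.finrank_V, N.toNodalCore.finrank_V,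
    N.ell_sub_single hm P]

/-- a proper subspace of `nodalRR (m R₁) (m R₂)` containing `V(m D₀ - P)` is equal to it. -/
theorem NodalSeed.td_eq_of_le {m : ℕ} (hm : N.m₁ ≤ m) (P : Place K F)
    {H : Submodule k (Fk₁ × Fk₂)} (hle : N.toNodalCore.V (m • N.D₀ - Finsupp.single P 1) ≤ H)
    (hH : H ≤ nodalRR N.s₁ N.s₂ (m • N.R₁) (m • N.R₂)) {z : Fk₁ × Fk₂}
    (hz : z ∈ nodalRR N.s₁ N.s₂ (m • N.R₁) (m • N.R₂)) (hzH : z ∉ H) :
    N.toNodalCore.V (m • N.D₀ - Finsupp.single P 1) = H := by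
  haveI := finite_nodalRR N.S₁.hFk N.S₂.hFk N.s₁ N.s₂ (m • N.R₁) (m • N.R₂)
  haveI : Module.Finite k H := Submodule.finiteDimensional_of_le hH
  have hlt : H < nodalRR N.s₁ N.s₂ (m • N.R₁) (m • N.R₂) :=
    lt_of_le_of_ne hH fun h => hzH (h ▸ hz)
  have h1 := Submodule.finrank_lt_finrank_of_lt hlt
  have h2 := N.td_finrank_V_sub hm P
  exact Submodule.eq_of_le_of_finrank_le hle (by omega)

/-- an element of `nodalRR (m R₁) (m R₂)` outside `nodalRR (m R₁ - Q) (m R₂)`. -/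
theorem NodalSeed.td_exists_notMem [Infinite k] {m : ℕ} (hm : N.m₁ ≤ m) (Q : Place k Fk₁) :
    ∃ z ∈ nodalRR N.s₁ N.s₂ (m • N.R₁) (m • N.R₂),
      z ∉ nodalRR N.s₁ N.s₂ (m • N.R₁ - Finsupp.single Q 1) (m • N.R₂) := by
  classical
  by_cases hQ : ∃ i, Q = N.s₁ i
  · obtain ⟨i, rfl⟩ := hQ
    refine ⟨(1, 1), ⟨td_one_mem (N.smul_R₁_nonneg m), td_one_mem (N.smul_R₂_nonneg m),
      fun j => ⟨1, td_valAt_one _, td_valAt_one _⟩⟩, fun h => ?_⟩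
    have := ((mem_riemannRochSpace_iff.mp h.1) (N.s₁ i)).resolve_left one_ne_zero
    rw [Finsupp.sub_apply, Finsupp.single_eq_same, N.smul_R₁_node, Place.ord_one] at this
    omega
  · push Not at hQ
    obtain ⟨a, ha, ha0, hac, haQ⟩ := exists_interpolation_exact N.S₁.hFk N.s₁ N.s₁_inj
      (m • N.R₁) (N.smul_R₁_node m) {Q} (fun Q' hQ' i => by
        rw [Finset.mem_singleton] at hQ'
        rw [hQ']
        exact hQ i) (N.hdeg₁ hm) (fun _ => 0)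
    refine ⟨(a, 0), ⟨ha, Submodule.zero_mem _, fun i => ⟨0, hac i, valAt_zero _⟩⟩, fun h => ?_⟩
    exact rx_notMem_of_ord_eq ha0 (haQ Q (Finset.mem_singleton_self Q)) h.1

/-- **S3, equality**: if `P` has a witness of type (1) at `Q`, then
`V(m D₀ - P) = nodalRR (m R₁ - Q) (m R₂)` for `m ≥ m₁`. -/
theorem NodalSeed.td_eq₁ [Infinite k] {m₁ : ℕ} {P : Place K F} {Q : Place k Fk₁} {f : F}
    (hf : N.toNodalCore.IsInt (m₁ • N.D₀ + Finsupp.single P 1) f) (hne : N.S₁.red f ≠ 0)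
    (hord : Q.ord (N.S₁.red f) = -((m₁ • N.R₁) Q) - 1) {m : ℕ} (hm : N.m₁ ≤ m) :
    N.toNodalCore.V (m • N.D₀ - Finsupp.single P 1) =
      nodalRR N.s₁ N.s₂ (m • N.R₁ - Finsupp.single Q 1) (m • N.R₂) := by
  obtain ⟨z, hz, hzH⟩ := N.td_exists_notMem hm Q
  exact N.td_eq_of_le hm P (N.td_le₁ hf hne hord m)
    (td_nodalRR_mono _ _ (td_sub_single_le _ Q) le_rfl) hz hzH

/-- **S3**: a witness of type (1) at `Q`: `Q` is not a node. -/
theorem NodalSeed.td_ne_node₁ [Infinite k] {m₁ : ℕ} {P : Place K F} {Q : Place k Fk₁} {f : F}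
    (hf : N.toNodalCore.IsInt (m₁ • N.D₀ + Finsupp.single P 1) f) (hne : N.S₁.red f ≠ 0)
    (hord : Q.ord (N.S₁.red f) = -((m₁ • N.R₁) Q) - 1) (i : ι) : Q ≠ N.s₁ i := by
  classical
  rintro rfl
  have hV := N.td_eq₁ hf hne hord (le_refl N.m₁)
  -- a function vanishing at the nodes, with a simple zero at `s₁ i`
  set T : Finset (Place k Fk₁) := Finset.univ.image N.s₁ with hT
  have hTcard : T.card = Fintype.card ι := by
    rw [hT, Finset.card_image_of_injective _ N.s₁_inj, Finset.card_univ]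
  have hTR : ∀ Q ∈ T, (N.m₁ • N.R₁) Q = 0 := by
    intro Q hQ
    obtain ⟨j, -, rfl⟩ := Finset.mem_image.mp hQ
    exact N.smul_R₁_node _ j
  have hmemT : ∀ j, N.s₁ j ∈ T := fun j => Finset.mem_image_of_mem N.s₁ (Finset.mem_univ j)
  have hdeg := N.hdeg₁ (le_refl N.m₁)
  obtain ⟨a, ha, han⟩ := rx_exists_exact N.S₁.hFk (N.m₁ • N.R₁ - sumPlaces T) (N.s₁ i)
    (by rw [map_sub, degree_sumPlaces N.S₁.hFk, hTcard]; omega)
  obtain ⟨ha0, haord⟩ := rx_ord_eq_of_notMem ha han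
  rw [Finsupp.sub_apply, N.smul_R₁_node, sumPlaces_apply_of_mem (hmemT i)] at haord
  have ha' := (mem_riemannRochSpace_sub_sumPlaces_iff hTR a).mp ha
  have haL : a ∈ riemannRochSpace (N.m₁ • N.R₁ - Finsupp.single (N.s₁ i) 1) := by
    refine td_mem_sub_single ha'.1 (Or.inr ?_)
    rw [N.smul_R₁_node, haord]
    omega
  have hz : (a, (0 : Fk₂)) ∈ N.toNodalCore.V (N.m₁ • N.D₀ - Finsupp.single P 1) := by
    rw [hV]
    exact ⟨haL, Submodule.zero_mem _, fun j =>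
      ⟨0, (valAt_zero_right_iff _ _).mpr (ha'.2 _ (hmemT j)), valAt_zero _⟩⟩
  obtain ⟨g, hg, hga, hgb⟩ := N.td_lift hz
  obtain ⟨c, hc1, hc2⟩ := (N.td_mul_seed hf hg).2.2 i
  rw [hga] at hc1
  rw [hgb, mul_zero] at hc2
  have hc0 : c = 0 := hc2.unique (valAt_zero _)
  rw [hc0, valAt_zero_right_iff] at hc1
  have h1 := hc1.resolve_left (mul_ne_zero hne ha0)
  rw [(N.s₁ i).ord_mul hne ha0, hord, N.smul_R₁_node, haord] at h1
  omega

/-! ### exclusion -/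

/-- a pole witness at `Q` and a unit witness at `Q` exclude each other. -/
theorem NodalSeed.td_excl₁ {m₁ m : ℕ} {P : Place K F} {Q : Place k Fk₁} {f g : F}
    (hf : N.toNodalCore.IsInt (m₁ • N.D₀ + Finsupp.single P 1) f) (hne : N.S₁.red f ≠ 0)
    (hord : Q.ord (N.S₁.red f) = -((m₁ • N.R₁) Q) - 1)
    (hg : N.toNodalCore.IsInt (m • N.D₀ - Finsupp.single P 1) g) (hgne : N.S₁.red g ≠ 0)
    (hgord : Q.ord (N.S₁.red g) = -((m • N.R₁) Q)) : False := by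
  have hprod := (N.td_mul_seed hf hg).1
  have := ((mem_riemannRochSpace_iff.mp hprod) Q).resolve_left (mul_ne_zero hne hgne)
  rw [Q.ord_mul hne hgne, N.td_smul_add_apply₁, hord, hgord] at this
  omega

/-! ### the existence statements for a place of type (1) -/

/-- `zero₁`. -/
theorem NodalSeed.td_zero₁ [Infinite k] {m₁ : ℕ} {P : Place K F} {Q : Place k Fk₁} {f : F}
    (hf : N.toNodalCore.IsInt (m₁ • N.D₀ + Finsupp.single P 1) f) (hne : N.S₁.red f ≠ 0)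
    (hord : Q.ord (N.S₁.red f) = -((m₁ • N.R₁) Q) - 1) :
    ∃ (m : ℕ) (g : F), N.toNodalCore.IsInt (m • N.D₀ - Finsupp.single P 1) g ∧
      N.S₁.red g ≠ 0 ∧ Q.ord (N.S₁.red g) = -((m • N.R₁) Q) + 1 := by
  classical
  have hQ := N.td_ne_node₁ hf hne hord
  have hV := N.td_eq₁ hf hne hord (le_refl N.m₁)
  have hb := N.big₁ (le_refl N.m₁)
  have hg := Int.natCast_nonneg (genusFF K F)
  have hg₂ := Int.natCast_nonneg (genusFF k Fk₂)
  obtain ⟨a, ha, ha0, hac, haQ⟩ := exists_interpolation_exact N.S₁.hFk N.s₁ N.s₁_inj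
    (N.m₁ • N.R₁ - Finsupp.single Q 1) (fun i => by
      rw [Finsupp.sub_apply, N.smul_R₁_node, Finsupp.single_apply, if_neg (hQ i), sub_zero])
    {Q} (fun Q' hQ' i => by
      rw [Finset.mem_singleton] at hQ'
      rw [hQ']
      exact hQ i)
    (by rw [map_sub, degree_single_one N.S₁.hFk]; omega) (fun _ => 0)
  have hz : (a, (0 : Fk₂)) ∈ N.toNodalCore.V (N.m₁ • N.D₀ - Finsupp.single P 1) := by
    rw [hV]
    exact ⟨ha, Submodule.zero_mem _, fun j => ⟨0, hac j, valAt_zero _⟩⟩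
  obtain ⟨g, hg, hga, -⟩ := N.td_lift hz
  refine ⟨N.m₁, g, hg, by rw [hga]; exact ha0, ?_⟩
  rw [hga, haQ Q (Finset.mem_singleton_self Q), Finsupp.sub_apply, Finsupp.single_eq_same]
  ring

/-- an element `(a, 0)` of `nodalRR (m R₁ - Q) (m R₂)` with exact order at `Q' ≠ Q`. -/
theorem NodalSeed.td_exists_unit₁ [Infinite k] {m : ℕ} (hm : N.m₁ ≤ m) (Q Q' : Place k Fk₁)
    (hQ' : ∀ i, Q' ≠ N.s₁ i) (hQQ' : Q' ≠ Q) :
    ∃ a : Fk₁, a ≠ 0 ∧ Q'.ord a = -((m • N.R₁) Q') ∧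
      (a, (0 : Fk₂)) ∈ nodalRR N.s₁ N.s₂ (m • N.R₁ - Finsupp.single Q 1) (m • N.R₂) := by
  classical
  have hb := N.big₁ hm
  have hg := Int.natCast_nonneg (genusFF K F)
  have hg₂ := Int.natCast_nonneg (genusFF k Fk₂)
  have hT : ∀ Q'' ∈ ({Q'} : Finset (Place k Fk₁)), ∀ i, Q'' ≠ N.s₁ i := by
    intro Q'' hQ'' i
    rw [Finset.mem_singleton] at hQ''
    rw [hQ'']
    exact hQ' i
  by_cases hQ : ∃ i, Q = N.s₁ i
  · obtain ⟨i, rfl⟩ := hQ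
    obtain ⟨a, ha, ha0, hac, haQ⟩ := exists_interpolation_exact N.S₁.hFk N.s₁ N.s₁_inj
      (m • N.R₁) (N.smul_R₁_node m) {Q'} hT (N.hdeg₁ hm) (fun _ => 0)
    refine ⟨a, ha0, haQ Q' (Finset.mem_singleton_self Q'), ?_, Submodule.zero_mem _,
      fun j => ⟨0, hac j, valAt_zero _⟩⟩
    refine td_mem_sub_single ha ?_
    show a = 0 ∨ -((m • N.R₁) (N.s₁ i)) + 1 ≤ (N.s₁ i).ord a
    rcases (valAt_zero_right_iff _ _).mp (hac i) with h0 | h0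
    · exact Or.inl h0
    · right
      rw [N.smul_R₁_node]
      omega
  · push Not at hQ
    obtain ⟨a, ha, ha0, hac, haQ⟩ := exists_interpolation_exact N.S₁.hFk N.s₁ N.s₁_inj
      (m • N.R₁ - Finsupp.single Q 1) (fun i => by
        rw [Finsupp.sub_apply, N.smul_R₁_node, Finsupp.single_apply, if_neg (hQ i), sub_zero])
      {Q'} hT (by rw [map_sub, degree_single_one N.S₁.hFk]; omega) (fun _ => 0)
    refine ⟨a, ha0, ?_, ha, Submodule.zero_mem _, fun j => ⟨0, hac j, valAt_zero _⟩⟩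
    rw [haQ Q' (Finset.mem_singleton_self Q'), Finsupp.sub_apply, Finsupp.single_apply,
      if_neg (Ne.symm hQQ'), sub_zero]

/-- an element `(0, b)` of `nodalRR (m R₁ - Q) (m R₂)` with exact order at `Q''`. -/
theorem NodalSeed.td_exists_unit₂ [Infinite k] {m : ℕ} (hm : N.m₁ ≤ m) (Q : Place k Fk₁)
    (Q'' : Place k Fk₂) (hQ'' : ∀ i, Q'' ≠ N.s₂ i) :
    ∃ b : Fk₂, b ≠ 0 ∧ Q''.ord b = -((m • N.R₂) Q'') ∧
      ((0 : Fk₁), b) ∈ nodalRR N.s₁ N.s₂ (m • N.R₁ - Finsupp.single Q 1) (m • N.R₂) := by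
  classical
  obtain ⟨b, hb, hb0, hbc, hbQ⟩ := exists_interpolation_exact N.S₂.hFk N.s₂ N.s₂_inj
    (m • N.R₂) (N.smul_R₂_node m) {Q''} (fun Q' hQ' i => by
      rw [Finset.mem_singleton] at hQ'
      rw [hQ']
      exact hQ'' i) (N.hdeg₂ hm) (fun _ => 0)
  exact ⟨b, hb0, hbQ Q'' (Finset.mem_singleton_self Q''), Submodule.zero_mem _, hb,
    fun j => ⟨0, valAt_zero _, hbc j⟩⟩

/-- `unit₁` for a place of type (1) at `Q`, at the points `Q' ≠ Q`. -/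
theorem NodalSeed.td_unit₁₁ [Infinite k] {m₁ : ℕ} {P : Place K F} {Q : Place k Fk₁} {f : F}
    (hf : N.toNodalCore.IsInt (m₁ • N.D₀ + Finsupp.single P 1) f) (hne : N.S₁.red f ≠ 0)
    (hord : Q.ord (N.S₁.red f) = -((m₁ • N.R₁) Q) - 1) (Q' : Place k Fk₁)
    (hQ' : ∀ i, Q' ≠ N.s₁ i) (hQQ' : Q' ≠ Q) :
    ∃ (m : ℕ) (g : F), N.toNodalCore.IsInt (m • N.D₀ - Finsupp.single P 1) g ∧
      N.S₁.red g ≠ 0 ∧ Q'.ord (N.S₁.red g) = -((m • N.R₁) Q') := by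
  have hV := N.td_eq₁ hf hne hord (le_refl N.m₁)
  obtain ⟨a, ha0, haQ, hz⟩ := N.td_exists_unit₁ (le_refl N.m₁) Q Q' hQ' hQQ'
  rw [← hV] at hz
  obtain ⟨g, hg, hga, -⟩ := N.td_lift hz
  exact ⟨N.m₁, g, hg, by rw [hga]; exact ha0, by rw [hga]; exact haQ⟩

/-- `unit₂` for a place of type (1). -/
theorem NodalSeed.td_unit₁₂ [Infinite k] {m₁ : ℕ} {P : Place K F} {Q : Place k Fk₁} {f : F}
    (hf : N.toNodalCore.IsInt (m₁ • N.D₀ + Finsupp.single P 1) f) (hne : N.S₁.red f ≠ 0)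
    (hord : Q.ord (N.S₁.red f) = -((m₁ • N.R₁) Q) - 1) (Q'' : Place k Fk₂)
    (hQ'' : ∀ i, Q'' ≠ N.s₂ i) :
    ∃ (m : ℕ) (g : F), N.toNodalCore.IsInt (m • N.D₀ - Finsupp.single P 1) g ∧
      N.S₂.red g ≠ 0 ∧ Q''.ord (N.S₂.red g) = -((m • N.R₂) Q'') := by
  have hV := N.td_eq₁ hf hne hord (le_refl N.m₁)
  obtain ⟨b, hb0, hbQ, hz⟩ := N.td_exists_unit₂ (le_refl N.m₁) Q Q'' hQ''
  rw [← hV] at hz
  obtain ⟨g, hg, -, hgb⟩ := N.td_lift hz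
  exact ⟨N.m₁, g, hg, by rw [hgb]; exact hb0, by rw [hgb]; exact hbQ⟩

/-- `node_unit` for a place of type (1). -/
theorem NodalSeed.td_node_unit₁ [Infinite k] {m₁ : ℕ} {P : Place K F} {Q : Place k Fk₁}
    {f : F} (hf : N.toNodalCore.IsInt (m₁ • N.D₀ + Finsupp.single P 1) f)
    (hne : N.S₁.red f ≠ 0) (hord : Q.ord (N.S₁.red f) = -((m₁ • N.R₁) Q) - 1) (i : ι) :
    ∃ (m : ℕ) (g : F), N.toNodalCore.IsInt (m • N.D₀ - Finsupp.single P 1) g ∧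
      ValAt (N.s₁ i) (N.S₁.red g) 1 ∧ ValAt (N.s₂ i) (N.S₂.red g) 1 := by
  classical
  have hQ := N.td_ne_node₁ hf hne hord
  have hV := N.td_eq₁ hf hne hord (le_refl N.m₁)
  have hb := N.big₁ (le_refl N.m₁)
  have hg := Int.natCast_nonneg (genusFF K F)
  have hg₂ := Int.natCast_nonneg (genusFF k Fk₂)
  obtain ⟨a, ha, -, hac, -⟩ := exists_interpolation_exact N.S₁.hFk N.s₁ N.s₁_inj
    (N.m₁ • N.R₁ - Finsupp.single Q 1) (fun i => by
      rw [Finsupp.sub_apply, N.smul_R₁_node, Finsupp.single_apply, if_neg (hQ i), sub_zero])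
    ∅ (by simp) (by rw [map_sub, degree_single_one N.S₁.hFk]; omega) (fun _ => 1)
  have hz : (a, (1 : Fk₂)) ∈ N.toNodalCore.V (N.m₁ • N.D₀ - Finsupp.single P 1) := by
    rw [hV]
    exact ⟨ha, td_one_mem (N.smul_R₂_nonneg _), fun j => ⟨1, hac j, td_valAt_one _⟩⟩
  obtain ⟨g, hg, hga, hgb⟩ := N.td_lift hz
  exact ⟨N.m₁, g, hg, by rw [hga]; exact hac i, by rw [hgb]; exact td_valAt_one _⟩

/-! ### type (N) -/

/-- **S3, node type, inclusion**: a witness of type (N) violating the node condition at `i`. -/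
theorem NodalSeed.td_leN {m₁ : ℕ} {P : Place K F} {f : F}
    (hf : N.toNodalCore.IsInt (m₁ • N.D₀ + Finsupp.single P 1) f) {i : ι} {c₁ c₂ : k}
    (h₁ : ValAt (N.s₁ i) (N.S₁.red f) c₁) (h₂ : ValAt (N.s₂ i) (N.S₂.red f) c₂)
    (hc : c₁ ≠ c₂) (m : ℕ) :
    N.toNodalCore.V (m • N.D₀ - Finsupp.single P 1) ≤
      nodalRR N.s₁ N.s₂ (m • N.R₁ - Finsupp.single (N.s₁ i) 1) (m • N.R₂) := by
  intro y hy
  obtain ⟨g, hg, rfl⟩ := (N.toNodalCore.mem_V_iff _).mp hy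
  rw [N.toNodalCore.red₂_def]
  have hseed := N.td_seed_of_sub hg
  refine ⟨td_mem_sub_single hseed.1 ?_, hseed.2.1, hseed.2.2⟩
  obtain ⟨d, hd1, hd2⟩ := hseed.2.2 i
  obtain ⟨e, he1, he2⟩ := (N.td_mul_seed hf hg).2.2 i
  have e1 : e = c₁ * d := he1.unique (h₁.mul hd1)
  have e2 : e = c₂ * d := he2.unique (h₂.mul hd2)
  have hd0 : d = 0 := by
    have : (c₁ - c₂) * d = 0 := by rw [sub_mul, ← e1, ← e2, sub_self]
    exact (mul_eq_zero.mp this).resolve_left (sub_ne_zero.mpr hc)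
  rw [hd0, valAt_zero_right_iff] at hd1
  show N.S₁.red g = 0 ∨ -((m • N.R₁) (N.s₁ i)) + 1 ≤ (N.s₁ i).ord (N.S₁.red g)
  rcases hd1 with h0 | h0
  · exact Or.inl h0
  · right
    rw [N.smul_R₁_node]
    have h0' : 0 < (N.s₁ i).ord (N.S₁.red g) := h0
    omega

/-- a witness of type (N) violates the node condition at some node. -/
theorem NodalSeed.td_exists_node {m₁ : ℕ} {f : F}
    (hf₁ : N.S₁.red f ∈ riemannRochSpace (m₁ • N.R₁))
    (hf₂ : N.S₂.red f ∈ riemannRochSpace (m₁ • N.R₂))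
    (hn : ((N.S₁.red f, N.S₂.red f) : Fk₁ × Fk₂) ∉ nodalRR N.s₁ N.s₂ (m₁ • N.R₁) (m₁ • N.R₂)) :
    ∃ (i : ι) (c₁ c₂ : k), ValAt (N.s₁ i) (N.S₁.red f) c₁ ∧ ValAt (N.s₂ i) (N.S₂.red f) c₂ ∧
      c₁ ≠ c₂ := by
  by_contra hcon
  push Not at hcon
  apply hn
  refine ⟨hf₁, hf₂, fun i => ?_⟩
  obtain ⟨c₁, hc₁⟩ := exists_const_sub N.S₁.hFk (N.s₁ i)
    (ord_nonneg_of_mem_of_apply_eq_zero (N.smul_R₁_node m₁ i) hf₁)
  obtain ⟨c₂, hc₂⟩ := exists_const_sub N.S₂.hFk (N.s₂ i)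
    (ord_nonneg_of_mem_of_apply_eq_zero (N.smul_R₂_node m₁ i) hf₂)
  have := hcon i c₁ c₂ hc₁ hc₂
  exact ⟨c₁, hc₁, this ▸ hc₂⟩

/-- **S3, node type**: if `P` has a witness of type (N), then for some node `i`,
`V(m D₀ - P) = {z ∈ nodalRR (m R₁) (m R₂) | z(node i) = 0}` for all `m ≥ m₁`. -/
theorem NodalSeed.td_eqN [Infinite k] {m₁ : ℕ} {P : Place K F} {f : F}
    (hf : N.toNodalCore.IsInt (m₁ • N.D₀ + Finsupp.single P 1) f)
    (hf₁ : N.S₁.red f ∈ riemannRochSpace (m₁ • N.R₁))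
    (hf₂ : N.S₂.red f ∈ riemannRochSpace (m₁ • N.R₂))
    (hn : ((N.S₁.red f, N.S₂.red f) : Fk₁ × Fk₂) ∉ nodalRR N.s₁ N.s₂ (m₁ • N.R₁) (m₁ • N.R₂)) :
    ∃ i : ι, ∀ m : ℕ, N.m₁ ≤ m → N.toNodalCore.V (m • N.D₀ - Finsupp.single P 1) =
      nodalRR N.s₁ N.s₂ (m • N.R₁ - Finsupp.single (N.s₁ i) 1) (m • N.R₂) := by
  obtain ⟨i, c₁, c₂, h₁, h₂, hc⟩ := N.td_exists_node hf₁ hf₂ hn
  refine ⟨i, fun m hm => ?_⟩
  obtain ⟨z, hz, hzH⟩ := N.td_exists_notMem hm (N.s₁ i)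
  exact N.td_eq_of_le hm P (N.td_leN hf h₁ h₂ hc m)
    (td_nodalRR_mono _ _ (td_sub_single_le _ _) le_rfl) hz hzH

/-- `unit₁` for a place of type (N). -/
theorem NodalSeed.td_unitN₁ [Infinite k] {m₁ : ℕ} {P : Place K F} {f : F}
    (hf : N.toNodalCore.IsInt (m₁ • N.D₀ + Finsupp.single P 1) f)
    (hf₁ : N.S₁.red f ∈ riemannRochSpace (m₁ • N.R₁))
    (hf₂ : N.S₂.red f ∈ riemannRochSpace (m₁ • N.R₂))
    (hn : ((N.S₁.red f, N.S₂.red f) : Fk₁ × Fk₂) ∉ nodalRR N.s₁ N.s₂ (m₁ • N.R₁) (m₁ • N.R₂))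
    (Q' : Place k Fk₁) (hQ' : ∀ i, Q' ≠ N.s₁ i) :
    ∃ (m : ℕ) (g : F), N.toNodalCore.IsInt (m • N.D₀ - Finsupp.single P 1) g ∧
      N.S₁.red g ≠ 0 ∧ Q'.ord (N.S₁.red g) = -((m • N.R₁) Q') := by
  obtain ⟨i, hV⟩ := N.td_eqN hf hf₁ hf₂ hn
  obtain ⟨a, ha0, haQ, hz⟩ := N.td_exists_unit₁ (le_refl N.m₁) (N.s₁ i) Q' hQ' (hQ' i)
  rw [← hV _ (le_refl N.m₁)] at hz
  obtain ⟨g, hg, hga, -⟩ := N.td_lift hz
  exact ⟨N.m₁, g, hg, by rw [hga]; exact ha0, by rw [hga]; exact haQ⟩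

/-- `unit₂` for a place of type (N). -/
theorem NodalSeed.td_unitN₂ [Infinite k] {m₁ : ℕ} {P : Place K F} {f : F}
    (hf : N.toNodalCore.IsInt (m₁ • N.D₀ + Finsupp.single P 1) f)
    (hf₁ : N.S₁.red f ∈ riemannRochSpace (m₁ • N.R₁))
    (hf₂ : N.S₂.red f ∈ riemannRochSpace (m₁ • N.R₂))
    (hn : ((N.S₁.red f, N.S₂.red f) : Fk₁ × Fk₂) ∉ nodalRR N.s₁ N.s₂ (m₁ • N.R₁) (m₁ • N.R₂))
    (Q'' : Place k Fk₂) (hQ'' : ∀ i, Q'' ≠ N.s₂ i) :
    ∃ (m : ℕ) (g : F), N.toNodalCore.IsInt (m • N.D₀ - Finsupp.single P 1) g ∧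
      N.S₂.red g ≠ 0 ∧ Q''.ord (N.S₂.red g) = -((m • N.R₂) Q'') := by
  obtain ⟨i, hV⟩ := N.td_eqN hf hf₁ hf₂ hn
  obtain ⟨b, hb0, hbQ, hz⟩ := N.td_exists_unit₂ (le_refl N.m₁) (N.s₁ i) Q'' hQ''
  rw [← hV _ (le_refl N.m₁)] at hz
  obtain ⟨g, hg, -, hgb⟩ := N.td_lift hz
  exact ⟨N.m₁, g, hg, by rw [hgb]; exact hb0, by rw [hgb]; exact hbQ⟩

/-! ### uniqueness -/

/-- the point `Q` of a place of type (1) is unique. -/
theorem NodalSeed.td_unique₁₁ [Infinite k] {m₁ m₁' : ℕ} {P : Place K F} {Q Q' : Place k Fk₁}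
    {f f' : F} (hf : N.toNodalCore.IsInt (m₁ • N.D₀ + Finsupp.single P 1) f)
    (hne : N.S₁.red f ≠ 0) (hord : Q.ord (N.S₁.red f) = -((m₁ • N.R₁) Q) - 1)
    (hf' : N.toNodalCore.IsInt (m₁' • N.D₀ + Finsupp.single P 1) f')
    (hne' : N.S₁.red f' ≠ 0) (hord' : Q'.ord (N.S₁.red f') = -((m₁' • N.R₁) Q') - 1) :
    Q' = Q := by
  by_contra hQQ'
  obtain ⟨m, g, hg, hg0, hgQ⟩ := N.td_unit₁₁ hf hne hord Q' (N.td_ne_node₁ hf' hne' hord') hQQ'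
  exact N.td_excl₁ hf' hne' hord' hg hg0 hgQ

/-- a place is not of type (1) and of type (N). -/
theorem NodalSeed.td_not₁N [Infinite k] {m₁ m₁' : ℕ} {P : Place K F} {Q : Place k Fk₁}
    {f f' : F} (hf : N.toNodalCore.IsInt (m₁ • N.D₀ + Finsupp.single P 1) f)
    (hne : N.S₁.red f ≠ 0) (hord : Q.ord (N.S₁.red f) = -((m₁ • N.R₁) Q) - 1)
    (hf' : N.toNodalCore.IsInt (m₁' • N.D₀ + Finsupp.single P 1) f')
    (hf₁ : N.S₁.red f' ∈ riemannRochSpace (m₁' • N.R₁))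
    (hf₂ : N.S₂.red f' ∈ riemannRochSpace (m₁' • N.R₂))
    (hn : ((N.S₁.red f', N.S₂.red f') : Fk₁ × Fk₂) ∉
      nodalRR N.s₁ N.s₂ (m₁' • N.R₁) (m₁' • N.R₂)) : False := by
  obtain ⟨m, g, hg, hg0, hgQ⟩ := N.td_unitN₁ hf' hf₁ hf₂ hn Q (N.td_ne_node₁ hf hne hord)
  exact N.td_excl₁ hf hne hord hg hg0 hgQ

/-! ### the places of `supp D₀` -/

/-- a place of `supp D₀` of type (1) at `Q`: `Q ∈ supp R₁`. -/
theorem NodalSeed.td_supp₁ {m₁ : ℕ} {P : Place K F} {Q : Place k Fk₁} {f : F}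
    (hP : N.D₀ P ≠ 0)
    (hf : N.toNodalCore.IsInt (m₁ • N.D₀ + Finsupp.single P 1) f) (hne : N.S₁.red f ≠ 0)
    (hord : Q.ord (N.S₁.red f) = -((m₁ • N.R₁) Q) - 1) : N.R₁ Q ≠ 0 := by
  classical
  have hle : m₁ • N.D₀ + Finsupp.single P 1 ≤ (m₁ + 1) • N.D₀ := by
    rw [add_smul, one_smul]
    refine add_le_add le_rfl ?_
    rw [Finsupp.le_def]
    intro v
    rw [Finsupp.single_apply]
    have h0 := (Finsupp.le_def.mp N.D₀_nonneg) v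
    simp only [Finsupp.coe_zero, Pi.zero_apply] at h0
    split_ifs with hv
    · subst hv
      omega
    · exact h0
  have hseed := N.seed (m₁ + 1) f (riemannRochSpace_mono hle hf.1) hf.2.1 hf.2.2
  have := ((mem_riemannRochSpace_iff.mp hseed.1) Q).resolve_left hne
  rw [hord, N.td_smul_add_apply₁, one_smul] at this
  intro h0
  rw [h0] at this
  omega

/-- a place of `supp D₀` is not of type (N). -/
theorem NodalSeed.td_suppN {m₁ : ℕ} {P : Place K F} {f : F} (hP : N.D₀ P ≠ 0)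
    (hf : N.toNodalCore.IsInt (m₁ • N.D₀ + Finsupp.single P 1) f)
    (hf₁ : N.S₁.red f ∈ riemannRochSpace (m₁ • N.R₁))
    (hf₂ : N.S₂.red f ∈ riemannRochSpace (m₁ • N.R₂))
    (hn : ((N.S₁.red f, N.S₂.red f) : Fk₁ × Fk₂) ∉ nodalRR N.s₁ N.s₂ (m₁ • N.R₁) (m₁ • N.R₂)) :
    False := by
  classical
  have hle : m₁ • N.D₀ + Finsupp.single P 1 ≤ (m₁ + 1) • N.D₀ := by
    rw [add_smul, one_smul]
    refine add_le_add le_rfl ?_
    rw [Finsupp.le_def]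
    intro v
    rw [Finsupp.single_apply]
    have h0 := (Finsupp.le_def.mp N.D₀_nonneg) v
    simp only [Finsupp.coe_zero, Pi.zero_apply] at h0
    split_ifs with hv
    · subst hv
      omega
    · exact h0
  have hseed := N.seed (m₁ + 1) f (riemannRochSpace_mono hle hf.1) hf.2.1 hf.2.2
  exact hn ⟨hf₁, hf₂, hseed.2.2⟩

/-! ### the second component (by `NodalSeed.swap`) -/

/-- **S3, inclusion**, second component (the roles of the components are exchanged in the nodal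
Riemann-Roch space: use `swap_mem_nodalRR_iff`). -/
theorem NodalSeed.td_le₂ {m₁ : ℕ} {P : Place K F} {Q : Place k Fk₂} {f : F}
    (hf : N.toNodalCore.IsInt (m₁ • N.D₀ + Finsupp.single P 1) f) (hne : N.S₂.red f ≠ 0)
    (hord : Q.ord (N.S₂.red f) = -((m₁ • N.R₂) Q) - 1) (m : ℕ) :
    N.toNodalCore.V (m • N.D₀ - Finsupp.single P 1) ≤
      nodalRR N.s₁ N.s₂ (m • N.R₁) (m • N.R₂ - Finsupp.single Q 1) := by
  intro y hy
  have h1 : y.swap ∈ N.swap.toNodalCore.V (m • N.D₀ - Finsupp.single P 1) := by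
    rw [N.mem_swap_V_iff, Prod.swap_swap]
    exact hy
  have h2 := N.swap.td_le₁ (P := P) (Q := Q) (f := f)
    ((N.toNodalCore.swap_isInt_iff _ f).mpr hf) hne hord m h1
  exact swap_mem_nodalRR_iff.mp h2

/-- **S3, equality**, second component. -/
theorem NodalSeed.td_eq₂ [Infinite k] {m₁ : ℕ} {P : Place K F} {Q : Place k Fk₂} {f : F}
    (hf : N.toNodalCore.IsInt (m₁ • N.D₀ + Finsupp.single P 1) f) (hne : N.S₂.red f ≠ 0)
    (hord : Q.ord (N.S₂.red f) = -((m₁ • N.R₂) Q) - 1) {m : ℕ} (hm : N.m₁ ≤ m) :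
    N.toNodalCore.V (m • N.D₀ - Finsupp.single P 1) =
      nodalRR N.s₁ N.s₂ (m • N.R₁) (m • N.R₂ - Finsupp.single Q 1) := by
  have h := N.swap.td_eq₁ (P := P) (Q := Q) (f := f)
    ((N.toNodalCore.swap_isInt_iff _ f).mpr hf) hne hord (m := m) (by rw [N.swap_m₁]; exact hm)
  ext y
  constructor
  · intro hy
    exact N.td_le₂ hf hne hord m hy
  · intro hy
    have h1 : y.swap ∈ nodalRR N.s₂ N.s₁ (m • N.R₂ - Finsupp.single Q 1) (m • N.R₁) :=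
      swap_mem_nodalRR_iff.mpr hy
    have h2 : y.swap ∈ N.swap.toNodalCore.V (m • N.D₀ - Finsupp.single P 1) :=
      h ▸ h1
    rw [N.mem_swap_V_iff, Prod.swap_swap] at h2
    exact h2

theorem NodalSeed.td_ne_node₂ [Infinite k] {m₁ : ℕ} {P : Place K F} {Q : Place k Fk₂} {f : F}
    (hf : N.toNodalCore.IsInt (m₁ • N.D₀ + Finsupp.single P 1) f) (hne : N.S₂.red f ≠ 0)
    (hord : Q.ord (N.S₂.red f) = -((m₁ • N.R₂) Q) - 1) (i : ι) : Q ≠ N.s₂ i :=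
  N.swap.td_ne_node₁ (P := P) (Q := Q) (f := f)
    ((N.toNodalCore.swap_isInt_iff _ f).mpr hf) hne hord i

theorem NodalSeed.td_excl₂ {m₁ m : ℕ} {P : Place K F} {Q : Place k Fk₂} {f g : F}
    (hf : N.toNodalCore.IsInt (m₁ • N.D₀ + Finsupp.single P 1) f) (hne : N.S₂.red f ≠ 0)
    (hord : Q.ord (N.S₂.red f) = -((m₁ • N.R₂) Q) - 1)
    (hg : N.toNodalCore.IsInt (m • N.D₀ - Finsupp.single P 1) g) (hgne : N.S₂.red g ≠ 0)
    (hgord : Q.ord (N.S₂.red g) = -((m • N.R₂) Q)) : False :=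
  N.swap.td_excl₁ (P := P) (Q := Q) (f := f) (g := g)
    ((N.toNodalCore.swap_isInt_iff _ f).mpr hf) hne hord
    ((N.toNodalCore.swap_isInt_iff _ g).mpr hg) hgne hgord

theorem NodalSeed.td_zero₂ [Infinite k] {m₁ : ℕ} {P : Place K F} {Q : Place k Fk₂} {f : F}
    (hf : N.toNodalCore.IsInt (m₁ • N.D₀ + Finsupp.single P 1) f) (hne : N.S₂.red f ≠ 0)
    (hord : Q.ord (N.S₂.red f) = -((m₁ • N.R₂) Q) - 1) :
    ∃ (m : ℕ) (g : F), N.toNodalCore.IsInt (m • N.D₀ - Finsupp.single P 1) g ∧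
      N.S₂.red g ≠ 0 ∧ Q.ord (N.S₂.red g) = -((m • N.R₂) Q) + 1 := by
  obtain ⟨m, g, hg, h1, h2⟩ := N.swap.td_zero₁ (P := P) (Q := Q) (f := f)
    ((N.toNodalCore.swap_isInt_iff _ f).mpr hf) hne hord
  exact ⟨m, g, (N.toNodalCore.swap_isInt_iff _ g).mp hg, h1, h2⟩

/-- `unit₂` for a place of type (2) at `Q`, at the points `Q' ≠ Q`. -/
theorem NodalSeed.td_unit₂₂ [Infinite k] {m₁ : ℕ} {P : Place K F} {Q : Place k Fk₂} {f : F}
    (hf : N.toNodalCore.IsInt (m₁ • N.D₀ + Finsupp.single P 1) f) (hne : N.S₂.red f ≠ 0)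
    (hord : Q.ord (N.S₂.red f) = -((m₁ • N.R₂) Q) - 1) (Q' : Place k Fk₂)
    (hQ' : ∀ i, Q' ≠ N.s₂ i) (hQQ' : Q' ≠ Q) :
    ∃ (m : ℕ) (g : F), N.toNodalCore.IsInt (m • N.D₀ - Finsupp.single P 1) g ∧
      N.S₂.red g ≠ 0 ∧ Q'.ord (N.S₂.red g) = -((m • N.R₂) Q') := by
  obtain ⟨m, g, hg, h1, h2⟩ := N.swap.td_unit₁₁ (P := P) (Q := Q) (f := f)
    ((N.toNodalCore.swap_isInt_iff _ f).mpr hf) hne hord Q' hQ' hQQ'
  exact ⟨m, g, (N.toNodalCore.swap_isInt_iff _ g).mp hg, h1, h2⟩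

/-- `unit₁` for a place of type (2). -/
theorem NodalSeed.td_unit₂₁ [Infinite k] {m₁ : ℕ} {P : Place K F} {Q : Place k Fk₂} {f : F}
    (hf : N.toNodalCore.IsInt (m₁ • N.D₀ + Finsupp.single P 1) f) (hne : N.S₂.red f ≠ 0)
    (hord : Q.ord (N.S₂.red f) = -((m₁ • N.R₂) Q) - 1) (Q'' : Place k Fk₁)
    (hQ'' : ∀ i, Q'' ≠ N.s₁ i) :
    ∃ (m : ℕ) (g : F), N.toNodalCore.IsInt (m • N.D₀ - Finsupp.single P 1) g ∧
      N.S₁.red g ≠ 0 ∧ Q''.ord (N.S₁.red g) = -((m • N.R₁) Q'') := by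
  obtain ⟨m, g, hg, h1, h2⟩ := N.swap.td_unit₁₂ (P := P) (Q := Q) (f := f)
    ((N.toNodalCore.swap_isInt_iff _ f).mpr hf) hne hord Q'' hQ''
  exact ⟨m, g, (N.toNodalCore.swap_isInt_iff _ g).mp hg, h1, h2⟩

/-- `node_unit` for a place of type (2). -/
theorem NodalSeed.td_node_unit₂ [Infinite k] {m₁ : ℕ} {P : Place K F} {Q : Place k Fk₂}
    {f : F} (hf : N.toNodalCore.IsInt (m₁ • N.D₀ + Finsupp.single P 1) f)
    (hne : N.S₂.red f ≠ 0) (hord : Q.ord (N.S₂.red f) = -((m₁ • N.R₂) Q) - 1) (i : ι) :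
    ∃ (m : ℕ) (g : F), N.toNodalCore.IsInt (m • N.D₀ - Finsupp.single P 1) g ∧
      ValAt (N.s₁ i) (N.S₁.red g) 1 ∧ ValAt (N.s₂ i) (N.S₂.red g) 1 := by
  obtain ⟨m, g, hg, h1, h2⟩ := N.swap.td_node_unit₁ (P := P) (Q := Q) (f := f)
    ((N.toNodalCore.swap_isInt_iff _ f).mpr hf) hne hord i
  exact ⟨m, g, (N.toNodalCore.swap_isInt_iff _ g).mp hg, h2, h1⟩

theorem NodalSeed.td_unique₂₂ [Infinite k] {m₁ m₁' : ℕ} {P : Place K F} {Q Q' : Place k Fk₂}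
    {f f' : F} (hf : N.toNodalCore.IsInt (m₁ • N.D₀ + Finsupp.single P 1) f)
    (hne : N.S₂.red f ≠ 0) (hord : Q.ord (N.S₂.red f) = -((m₁ • N.R₂) Q) - 1)
    (hf' : N.toNodalCore.IsInt (m₁' • N.D₀ + Finsupp.single P 1) f')
    (hne' : N.S₂.red f' ≠ 0) (hord' : Q'.ord (N.S₂.red f') = -((m₁' • N.R₂) Q') - 1) :
    Q' = Q :=
  N.swap.td_unique₁₁ (P := P) (Q := Q) (Q' := Q') (f := f) (f' := f')
    ((N.toNodalCore.swap_isInt_iff _ f).mpr hf) hne hord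
    ((N.toNodalCore.swap_isInt_iff _ f').mpr hf') hne' hord'

/-- a place is not of type (1) and of type (2). -/
theorem NodalSeed.td_not₁₂ [Infinite k] {m₁ m₁' : ℕ} {P : Place K F} {Q : Place k Fk₁}
    {Q' : Place k Fk₂} {f f' : F}
    (hf : N.toNodalCore.IsInt (m₁ • N.D₀ + Finsupp.single P 1) f)
    (hne : N.S₁.red f ≠ 0) (hord : Q.ord (N.S₁.red f) = -((m₁ • N.R₁) Q) - 1)
    (hf' : N.toNodalCore.IsInt (m₁' • N.D₀ + Finsupp.single P 1) f')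
    (hne' : N.S₂.red f' ≠ 0) (hord' : Q'.ord (N.S₂.red f') = -((m₁' • N.R₂) Q') - 1) :
    False := by
  obtain ⟨m, g, hg, hg0, hgQ⟩ := N.td_unit₁₂ hf hne hord Q' (N.td_ne_node₂ hf' hne' hord')
  exact N.td_excl₂ hf' hne' hord' hg hg0 hgQ

/-- a place is not of type (2) and of type (N). -/
theorem NodalSeed.td_not₂N [Infinite k] {m₁ m₁' : ℕ} {P : Place K F} {Q : Place k Fk₂}
    {f f' : F} (hf : N.toNodalCore.IsInt (m₁ • N.D₀ + Finsupp.single P 1) f)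
    (hne : N.S₂.red f ≠ 0) (hord : Q.ord (N.S₂.red f) = -((m₁ • N.R₂) Q) - 1)
    (hf' : N.toNodalCore.IsInt (m₁' • N.D₀ + Finsupp.single P 1) f')
    (hf₁ : N.S₁.red f' ∈ riemannRochSpace (m₁' • N.R₁))
    (hf₂ : N.S₂.red f' ∈ riemannRochSpace (m₁' • N.R₂))
    (hn : ((N.S₁.red f', N.S₂.red f') : Fk₁ × Fk₂) ∉
      nodalRR N.s₁ N.s₂ (m₁' • N.R₁) (m₁' • N.R₂)) : False := by
  obtain ⟨m, g, hg, hg0, hgQ⟩ := N.td_unitN₂ hf' hf₁ hf₂ hn Q (N.td_ne_node₂ hf hne hord)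
  exact N.td_excl₂ hf hne hord hg hg0 hgQ

theorem NodalSeed.td_supp₂ {m₁ : ℕ} {P : Place K F} {Q : Place k Fk₂} {f : F}
    (hP : N.D₀ P ≠ 0)
    (hf : N.toNodalCore.IsInt (m₁ • N.D₀ + Finsupp.single P 1) f) (hne : N.S₂.red f ≠ 0)
    (hord : Q.ord (N.S₂.red f) = -((m₁ • N.R₂) Q) - 1) : N.R₂ Q ≠ 0 :=
  N.swap.td_supp₁ (P := P) (Q := Q) (f := f) hP
    ((N.toNodalCore.swap_isInt_iff _ f).mpr hf) hne hord

end Fermat.Agent.BadRed
end
end MergeWrap_Lib_BadRed_Nodal_Deuring2_TypeDual
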