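import Mathlib
import Fermat.Agent.MUL.Lib.BadRed.Nodal.Deuring2.TypeA
import Fermat.Agent.MUL.Lib.GenusEq.Inputs

section MergeWrap_Lib_BadRed_Nodal_Deuring2_TypeB -- from Lib/BadRed/Nodal/Deuring2/TypeB.lean

set_option autoImplicit false
set_option linter.unusedSectionVars false
set_option linter.style.haveILetI false

/-!
# Cluster T, WP N4, step S2 (part B): the TYPE of a place  (helper79)

Blueprint: `NOTES/blueprint-T-N4.md`.  For a seed `N`, a place `P` of `F / K` and a level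
`m ≥ m₁`, the line `V(m D₀ + P) / V(m D₀)` has a TYPE:

* `N.HasPole₁ m P Q` : a generator has a pole of order `m R₁(Q) + 1` at the place `Q` of the
  first component;
* `N.HasPole₂ m P Q` : the same on the second component;
* `N.IsNodeType m P` : a generator lies in `L(m R₁) × L(m R₂)` and violates a node condition.

Results: `N.trichotomy` (one of the three holds), exclusivity and uniqueness of `Q` at a fixed
level (`HasPole₁.forall_mem`, `HasPole₁.unique`, ...), `HasPole₁.up` (`m → m + m'`), and the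
independence of the level (`HasPole₁.level`, `IsNodeType.level`).
-/

noncomputable section

open AlgebraicCurve Fermat.Agent.RR Fermat.Agent.Deuring

namespace Fermat.Agent.BadRed

variable {K F k Fk₁ Fk₂ : Type*} [Field K] [Field F] [Algebra K F]
  [Field k] [Field Fk₁] [Algebra k Fk₁] [Field Fk₂] [Algebra k Fk₂]

/-! ### one curve -/

section One

variable {Fk : Type*} [Field Fk] [Algebra k Fk]

/-- a function with `ord_Q a = - R Q - 1` is not in `L(R)`. -/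
theorem not_mem_riemannRochSpace_of_ord {R : Divisor k Fk} {Q : Place k Fk} {a : Fk}
    (ha : a ≠ 0) (hord : Q.ord a = -(R Q) - 1) : a ∉ riemannRochSpace R := by
  intro h
  have := ((mem_riemannRochSpace_iff.mp h) Q).resolve_left ha
  omega

/-- a function of `L(R + Q')` with `ord_Q a = - R Q - 1`: then `Q' = Q`. -/
theorem eq_of_mem_add_single_of_ord {R : Divisor k Fk} {Q Q' : Place k Fk} {a : Fk}
    (ha : a ≠ 0) (hord : Q.ord a = -(R Q) - 1)
    (hmem : a ∈ riemannRochSpace (R + Finsupp.single Q' 1)) : Q' = Q := by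
  classical
  by_contra hne
  have := ((mem_riemannRochSpace_iff.mp hmem) Q).resolve_left ha
  rw [Finsupp.add_apply, Finsupp.single_apply, if_neg hne, add_zero] at this
  omega

end One

variable {ι : Type*} [Fintype ι] (N : NodalSeed K F k Fk₁ Fk₂ ι)

/-! ### the three types -/

/-- the line `V(m D₀ + P) / V(m D₀)` is generated by a pair with a pole at the place `Q` of the
first component. -/
def NodalSeed.HasPole₁ (m : ℕ) (P : Place K F) (Q : Place k Fk₁) : Prop :=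
  ∃ f : F, N.toNodalCore.IsInt (m • N.D₀ + Finsupp.single P 1) f ∧ N.S₁.red f ≠ 0 ∧
    Q.ord (N.S₁.red f) = -((m • N.R₁) Q) - 1

/-- the line `V(m D₀ + P) / V(m D₀)` is generated by a pair with a pole at the place `Q` of the
second component. -/
def NodalSeed.HasPole₂ (m : ℕ) (P : Place K F) (Q : Place k Fk₂) : Prop :=
  ∃ f : F, N.toNodalCore.IsInt (m • N.D₀ + Finsupp.single P 1) f ∧ N.S₂.red f ≠ 0 ∧
    Q.ord (N.S₂.red f) = -((m • N.R₂) Q) - 1

/-- the line `V(m D₀ + P) / V(m D₀)` is generated by a pair without new poles, which violates a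
node condition. -/
def NodalSeed.IsNodeType (m : ℕ) (P : Place K F) : Prop :=
  ∃ f : F, N.toNodalCore.IsInt (m • N.D₀ + Finsupp.single P 1) f ∧
    N.S₁.red f ∈ riemannRochSpace (m • N.R₁) ∧ N.S₂.red f ∈ riemannRochSpace (m • N.R₂) ∧
    ((N.S₁.red f, N.S₂.red f) : Fk₁ × Fk₂) ∉ nodalRR N.s₁ N.s₂ (m • N.R₁) (m • N.R₂)

variable {N}

theorem NodalSeed.swap_hasPole₁_iff {m : ℕ} {P : Place K F} {Q : Place k Fk₂} :
    N.swap.HasPole₁ m P Q ↔ N.HasPole₂ m P Q := by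
  constructor
  · rintro ⟨f, hf, h1, h2⟩
    exact ⟨f, (N.toNodalCore.swap_isInt_iff _ f).mp hf, h1, h2⟩
  · rintro ⟨f, hf, h1, h2⟩
    exact ⟨f, (N.toNodalCore.swap_isInt_iff _ f).mpr hf, h1, h2⟩

theorem NodalSeed.swap_hasPole₂_iff {m : ℕ} {P : Place K F} {Q : Place k Fk₁} :
    N.swap.HasPole₂ m P Q ↔ N.HasPole₁ m P Q := by
  constructor
  · rintro ⟨f, hf, h1, h2⟩
    exact ⟨f, (N.toNodalCore.swap_isInt_iff _ f).mp hf, h1, h2⟩
  · rintro ⟨f, hf, h1, h2⟩
    exact ⟨f, (N.toNodalCore.swap_isInt_iff _ f).mpr hf, h1, h2⟩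

theorem NodalSeed.swap_isNodeType_iff {m : ℕ} {P : Place K F} :
    N.swap.IsNodeType m P ↔ N.IsNodeType m P := by
  constructor
  · rintro ⟨f, hf, h1, h2, h3⟩
    exact ⟨f, (N.toNodalCore.swap_isInt_iff _ f).mp hf, h2, h1, fun h => h3 (nodalRR_swap h)⟩
  · rintro ⟨f, hf, h1, h2, h3⟩
    exact ⟨f, (N.toNodalCore.swap_isInt_iff _ f).mpr hf, h2, h1, fun h => h3 (nodalRR_swap h)⟩

/-- elements of `V(m D₀)` lie in `L(m R₁) × L(m R₂)`. -/
theorem NodalSeed.fst_mem_of_mem_V {m : ℕ} {w : Fk₁ × Fk₂}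
    (hw : w ∈ N.toNodalCore.V (m • N.D₀)) : w.1 ∈ riemannRochSpace (m • N.R₁) :=
  (N.V_le m hw).1

theorem NodalSeed.snd_mem_of_mem_V {m : ℕ} {w : Fk₁ × Fk₂}
    (hw : w ∈ N.toNodalCore.V (m • N.D₀)) : w.2 ∈ riemannRochSpace (m • N.R₂) :=
  (N.V_le m hw).2.1

/-! ### a fixed level -/

/-- the reduction of a witness of `HasPole₁`. -/
theorem NodalSeed.HasPole₁.exists_mem {m : ℕ} {P : Place K F} {Q : Place k Fk₁}
    (h : N.HasPole₁ m P Q) :
    ∃ w ∈ N.toNodalCore.V (m • N.D₀ + Finsupp.single P 1), w.1 ≠ 0 ∧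
      Q.ord w.1 = -((m • N.R₁) Q) - 1 := by
  obtain ⟨f, hf, h1, h2⟩ := h
  exact ⟨N.toNodalCore.red₂ f, N.toNodalCore.red₂_mem_V hf, h1, h2⟩

theorem NodalSeed.hasPole₁_of_mem {m : ℕ} {P : Place K F} {Q : Place k Fk₁} {w : Fk₁ × Fk₂}
    (hw : w ∈ N.toNodalCore.V (m • N.D₀ + Finsupp.single P 1)) (h1 : w.1 ≠ 0)
    (h2 : Q.ord w.1 = -((m • N.R₁) Q) - 1) : N.HasPole₁ m P Q := by
  obtain ⟨f, hf, rfl⟩ := (N.toNodalCore.mem_V_iff _).mp hw
  exact ⟨f, hf, h1, h2⟩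

/-- **same-level structure**: if the type is `(1, Q)`, every element of `V(m D₀ + P)` lies in
`L(m R₁ + Q) × L(m R₂)`, and the elements outside `V(m D₀)` have a pole at `Q`. -/
theorem NodalSeed.HasPole₁.forall_mem [Infinite k] {m : ℕ} (hm : N.m₁ ≤ m) {P : Place K F}
    {Q : Place k Fk₁} (h : N.HasPole₁ m P Q) {w : Fk₁ × Fk₂}
    (hw : w ∈ N.toNodalCore.V (m • N.D₀ + Finsupp.single P 1)) :
    w.1 ∈ riemannRochSpace (m • N.R₁ + Finsupp.single Q 1) ∧
      w.2 ∈ riemannRochSpace (m • N.R₂) ∧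
      (w ∉ N.toNodalCore.V (m • N.D₀) → w.1 ≠ 0 ∧ Q.ord w.1 = -((m • N.R₁) Q) - 1) := by
  obtain ⟨w₀, hw₀, hw₀1, hw₀2⟩ := h.exists_mem
  have hw₀not : w₀.1 ∉ riemannRochSpace (m • N.R₁) := not_mem_riemannRochSpace_of_ord hw₀1 hw₀2
  have hw₀V : w₀ ∉ N.toNodalCore.V (m • N.D₀) := fun h => hw₀not (N.fst_mem_of_mem_V h)
  -- the witness lies in `L(m R₁ + Q) × L(m R₂)`
  have hw₀mem : w₀.1 ∈ riemannRochSpace (m • N.R₁ + Finsupp.single Q 1) ∧
      w₀.2 ∈ riemannRochSpace (m • N.R₂) := by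
    rcases N.excess hm P hw₀ with ⟨h2, Q', hQ'⟩ | ⟨h1, -⟩
    · have := eq_of_mem_add_single_of_ord hw₀1 hw₀2 hQ'
      subst this
      exact ⟨hQ', h2⟩
    · exact absurd h1 hw₀not
  obtain ⟨l, hl⟩ := N.exists_sub_smul_mem hm P hw₀ hw₀V hw
  have hv1 := N.fst_mem_of_mem_V hl
  have hv2 := N.snd_mem_of_mem_V hl
  have e1 : w.1 = (w - l • w₀).1 + l • w₀.1 := by
    simp only [Prod.fst_sub, Prod.smul_fst, sub_add_cancel]
  have e2 : w.2 = (w - l • w₀).2 + l • w₀.2 := by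
    simp only [Prod.snd_sub, Prod.smul_snd, sub_add_cancel]
  have hmem1 : w.1 ∈ riemannRochSpace (m • N.R₁ + Finsupp.single Q 1) := by
    rw [e1]
    exact Submodule.add_mem _ (riemannRochSpace_mono (le_add_single _ Q) hv1)
      (Submodule.smul_mem _ l hw₀mem.1)
  refine ⟨hmem1, ?_, fun hwV => ?_⟩
  · rw [e2]
    exact Submodule.add_mem _ hv2 (Submodule.smul_mem _ l hw₀mem.2)
  · have hl0 : l ≠ 0 := by
      rintro rfl
      rw [zero_smul, sub_zero] at hl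
      exact hwV hl
    have hnot : w.1 ∉ riemannRochSpace (m • N.R₁) := by
      intro hin
      apply hw₀not
      have h3 : l • w₀.1 ∈ riemannRochSpace (m • N.R₁) := by
        have e3 : l • w₀.1 = w.1 - (w - l • w₀).1 := by
          simp only [Prod.fst_sub, Prod.smul_fst, sub_sub_cancel]
        rw [e3]
        exact Submodule.sub_mem _ hin hv1
      have := Submodule.smul_mem _ l⁻¹ h3
      rwa [smul_smul, inv_mul_cancel₀ hl0, one_smul] at this
    have := ord_eq_of_mem_add_single_of_not_mem hmem1 hnot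
    exact ⟨this.1, this.2⟩

/-- uniqueness of the place `Q`. -/
theorem NodalSeed.HasPole₁.unique [Infinite k] {m : ℕ} (hm : N.m₁ ≤ m) {P : Place K F}
    {Q Q' : Place k Fk₁} (h : N.HasPole₁ m P Q) (h' : N.HasPole₁ m P Q') : Q = Q' := by
  obtain ⟨w, hw, hw1, hw2⟩ := h'.exists_mem
  exact eq_of_mem_add_single_of_ord hw1 hw2 (h.forall_mem hm hw).1

/-- the types `(1, Q)` and `(2, Q')` exclude each other. -/
theorem NodalSeed.HasPole₁.not_hasPole₂ [Infinite k] {m : ℕ} (hm : N.m₁ ≤ m) {P : Place K F}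
    {Q : Place k Fk₁} {Q' : Place k Fk₂} (h : N.HasPole₁ m P Q) : ¬ N.HasPole₂ m P Q' := by
  rintro ⟨f, hf, h1, h2⟩
  exact not_mem_riemannRochSpace_of_ord h1 h2
    (h.forall_mem hm (N.toNodalCore.red₂_mem_V hf)).2.1

/-- the type `(1, Q)` excludes the node type. -/
theorem NodalSeed.HasPole₁.not_isNodeType [Infinite k] {m : ℕ} (hm : N.m₁ ≤ m) {P : Place K F}
    {Q : Place k Fk₁} (h : N.HasPole₁ m P Q) : ¬ N.IsNodeType m P := by
  rintro ⟨f, hf, h1, h2, h3⟩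
  have hV : N.toNodalCore.red₂ f ∉ N.toNodalCore.V (m • N.D₀) := by
    rw [N.V_eq (N.m₀_le_of_m₁_le hm)]
    exact h3
  obtain ⟨h4, h5⟩ := (h.forall_mem hm (N.toNodalCore.red₂_mem_V hf)).2.2 hV
  exact not_mem_riemannRochSpace_of_ord h4 h5 h1

theorem NodalSeed.HasPole₂.not_isNodeType [Infinite k] {m : ℕ} (hm : N.m₁ ≤ m) {P : Place K F}
    {Q : Place k Fk₂} (h : N.HasPole₂ m P Q) : ¬ N.IsNodeType m P := fun hN =>
  (NodalSeed.swap_hasPole₁_iff.mpr h).not_isNodeType (by rw [N.swap_m₁]; exact hm)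
    (NodalSeed.swap_isNodeType_iff.mpr hN)

theorem NodalSeed.HasPole₂.unique [Infinite k] {m : ℕ} (hm : N.m₁ ≤ m) {P : Place K F}
    {Q Q' : Place k Fk₂} (h : N.HasPole₂ m P Q) (h' : N.HasPole₂ m P Q') : Q = Q' :=
  (NodalSeed.swap_hasPole₁_iff.mpr h).unique (by rw [N.swap_m₁]; exact hm)
    (NodalSeed.swap_hasPole₁_iff.mpr h')

/-- **Trichotomy** at the level `m`. -/
theorem NodalSeed.trichotomy [Infinite k] {m : ℕ} (hm : N.m₁ ≤ m) (P : Place K F) :
    (∃ Q, N.HasPole₁ m P Q) ∨ (∃ Q, N.HasPole₂ m P Q) ∨ N.IsNodeType m P := by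
  obtain ⟨w, hw, hwV⟩ := N.exists_not_mem hm P
  obtain ⟨f, hf, rfl⟩ := (N.toNodalCore.mem_V_iff _).mp hw
  by_cases h1 : N.S₁.red f ∈ riemannRochSpace (m • N.R₁)
  · by_cases h2 : N.S₂.red f ∈ riemannRochSpace (m • N.R₂)
    · right; right
      refine ⟨f, hf, h1, h2, ?_⟩
      rw [← N.V_eq (N.m₀_le_of_m₁_le hm)]
      exact hwV
    · right; left
      rcases N.excess hm P hw with ⟨h2', -⟩ | ⟨-, Q, hQ⟩
      · exact absurd h2' h2
      · have := ord_eq_of_mem_add_single_of_not_mem hQ h2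
        exact ⟨Q, f, hf, this.1, this.2⟩
  · left
    rcases N.excess hm P hw with ⟨-, Q, hQ⟩ | ⟨h1', -⟩
    · have := ord_eq_of_mem_add_single_of_not_mem hQ h1
      exact ⟨Q, f, hf, this.1, this.2⟩
    · exact absurd h1' h1

/-! ### changing the level -/

/-- an element of `𝔏(m' D₀)` whose first reduction has the exact order `- m' R₁(Q)` at `Q`. -/
theorem NodalSeed.exists_exact₁ [Infinite k] {m' : ℕ} (hm' : N.m₁ ≤ m') (Q : Place k Fk₁) :
    ∃ g : F, N.toNodalCore.IsInt (m' • N.D₀) g ∧ N.S₁.red g ≠ 0 ∧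
      Q.ord (N.S₁.red g) = -((m' • N.R₁) Q) := by
  classical
  by_cases hQ : ∃ i, Q = N.s₁ i
  · obtain ⟨i, rfl⟩ := hQ
    obtain ⟨u, hu, hu1, -, huc, -, -, -⟩ := exists_nodal_pair N.S₁.hFk N.S₂.hFk N.s₁ N.s₂
      N.s₁_inj N.s₂_inj (m' • N.R₁) (m' • N.R₂) (N.smul_R₁_node m') (N.smul_R₂_node m')
      ∅ ∅ (by simp) (by simp) (N.hdeg₁ hm') (N.hdeg₂ hm') (fun _ => 1)
    obtain ⟨g, hgL, hg1, hg2, hga, -⟩ :=
      N.exists_lift (N.m₀_le_of_m₁_le hm') (a := u.1) (b := u.2) hu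
    refine ⟨g, ⟨hgL, hg1, hg2⟩, by rw [hga]; exact hu1, ?_⟩
    rw [hga, N.smul_R₁_node m' i, neg_zero]
    exact ((huc i).ord_eq_zero_iff hu1).mpr one_ne_zero
  · push Not at hQ
    obtain ⟨u, hu, hu1, -, -, -, huT, -⟩ := exists_nodal_pair N.S₁.hFk N.S₂.hFk N.s₁ N.s₂
      N.s₁_inj N.s₂_inj (m' • N.R₁) (m' • N.R₂) (N.smul_R₁_node m') (N.smul_R₂_node m')
      {Q} ∅ (by simpa using hQ) (by simp) (N.hdeg₁ hm') (N.hdeg₂ hm') (fun _ => 0)
    obtain ⟨g, hgL, hg1, hg2, hga, -⟩ :=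
      N.exists_lift (N.m₀_le_of_m₁_le hm') (a := u.1) (b := u.2) hu
    refine ⟨g, ⟨hgL, hg1, hg2⟩, by rw [hga]; exact hu1, ?_⟩
    rw [hga]
    exact huT Q (Finset.mem_singleton_self Q)

theorem NodalSeed.add_smul_add_single (m m' : ℕ) (P : Place K F) :
    (m + m') • N.D₀ + Finsupp.single P 1 = (m • N.D₀ + Finsupp.single P 1) + m' • N.D₀ := by
  rw [add_smul]
  abel

/-- **going up**: the type `(1, Q)` at the level `m` gives the type `(1, Q)` at the level
`m + m'`. -/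
theorem NodalSeed.HasPole₁.up [Infinite k] {m m' : ℕ} (hm' : N.m₁ ≤ m') {P : Place K F}
    {Q : Place k Fk₁} (h : N.HasPole₁ m P Q) : N.HasPole₁ (m + m') P Q := by
  obtain ⟨f, hf, hf1, hf2⟩ := h
  obtain ⟨g, hg, hg1, hg2⟩ := N.exists_exact₁ hm' Q
  have hfg := NodalCore.IsInt.mul N.toNodalCore hf hg
  rw [← N.add_smul_add_single] at hfg
  refine ⟨f * g, hfg, ?_, ?_⟩
  · rw [N.S₁.red_mul hf.2.1 hg.2.1]
    exact mul_ne_zero hf1 hg1
  · rw [N.S₁.red_mul hf.2.1 hg.2.1, Q.ord_mul hf1 hg1, hf2, hg2, add_smul, Finsupp.add_apply]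
    ring

theorem NodalSeed.HasPole₂.up [Infinite k] {m m' : ℕ} (hm' : N.m₁ ≤ m') {P : Place K F}
    {Q : Place k Fk₂} (h : N.HasPole₂ m P Q) : N.HasPole₂ (m + m') P Q :=
  NodalSeed.swap_hasPole₁_iff.mp
    ((NodalSeed.swap_hasPole₁_iff.mpr h).up (by rw [N.swap_m₁]; exact hm'))

/-- **independence of the level**, type `(1, Q)`. -/
theorem NodalSeed.HasPole₁.level [Infinite k] {m m' : ℕ} (hm : N.m₁ ≤ m) (hm' : N.m₁ ≤ m')
    {P : Place K F} {Q : Place k Fk₁} (h : N.HasPole₁ m P Q) : N.HasPole₁ m' P Q := by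
  have hmm : N.m₁ ≤ m + m' := le_trans hm (Nat.le_add_right _ _)
  have hup := h.up hm' (m' := m')
  rcases N.trichotomy hm' P with ⟨Q', hQ'⟩ | ⟨Q', hQ'⟩ | hN
  · have hup' := hQ'.up hm (m' := m)
    rw [add_comm] at hup'
    have := hup.unique hmm hup'
    subst this
    exact hQ'
  · have hup' := hQ'.up hm (m' := m)
    rw [add_comm] at hup'
    exact absurd hup' (hup.not_hasPole₂ hmm)
  · exfalso
    obtain ⟨f, hf, h1, h2, h3⟩ := hN
    have hle₀ : m' • N.D₀ ≤ (m + m') • N.D₀ := by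
      rw [add_smul]
      exact le_add_of_nonneg_left (N.smul_D₀_nonneg m)
    have hle : m' • N.D₀ + Finsupp.single P 1 ≤ (m + m') • N.D₀ + Finsupp.single P 1 :=
      add_le_add_left hle₀ _
    have hw := N.toNodalCore.V_mono hle (N.toNodalCore.red₂_mem_V hf)
    have hle₁ : m' • N.R₁ ≤ (m + m') • N.R₁ := by
      rw [add_smul]
      exact le_add_of_nonneg_left (N.smul_R₁_nonneg m)
    have hle₂ : m' • N.R₂ ≤ (m + m') • N.R₂ := by
      rw [add_smul]
      exact le_add_of_nonneg_left (N.smul_R₂_nonneg m)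
    have hV : N.toNodalCore.red₂ f ∉ N.toNodalCore.V ((m + m') • N.D₀) := by
      rw [N.V_eq (N.m₀_le_of_m₁_le hmm)]
      intro hin
      exact h3 ⟨h1, h2, hin.2.2⟩
    obtain ⟨h4, h5⟩ := (hup.forall_mem hmm hw).2.2 hV
    exact not_mem_riemannRochSpace_of_ord h4 h5 (riemannRochSpace_mono hle₁ h1)

theorem NodalSeed.HasPole₂.level [Infinite k] {m m' : ℕ} (hm : N.m₁ ≤ m) (hm' : N.m₁ ≤ m')
    {P : Place K F} {Q : Place k Fk₂} (h : N.HasPole₂ m P Q) : N.HasPole₂ m' P Q :=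
  NodalSeed.swap_hasPole₁_iff.mp
    ((NodalSeed.swap_hasPole₁_iff.mpr h).level (by rw [N.swap_m₁]; exact hm)
      (by rw [N.swap_m₁]; exact hm'))

/-- **independence of the level**, node type. -/
theorem NodalSeed.IsNodeType.level [Infinite k] {m m' : ℕ} (hm : N.m₁ ≤ m) (hm' : N.m₁ ≤ m')
    {P : Place K F} (h : N.IsNodeType m P) : N.IsNodeType m' P := by
  rcases N.trichotomy hm' P with ⟨Q', hQ'⟩ | ⟨Q', hQ'⟩ | hN
  · exact absurd h ((hQ'.level hm' hm).not_isNodeType hm)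
  · exact absurd h ((hQ'.level hm' hm).not_isNodeType hm)
  · exact hN

/-! ### the reduction map -/

variable (N)

open Classical in
/-- **The reduction map of the places** attached to a seed: `some (inl Q)` (resp.
`some (inr Q)`) if the type of `P` is `(1, Q)` (resp. `(2, Q)`), `none` if `P` is of node type. -/
def NodalSeed.rmap (P : Place K F) : Option (Place k Fk₁ ⊕ Place k Fk₂) :=
  if h : ∃ Q, N.HasPole₁ N.m₁ P Q then some (Sum.inl h.choose)
  else if h : ∃ Q, N.HasPole₂ N.m₁ P Q then some (Sum.inr h.choose) else none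

variable {N}

theorem NodalSeed.rmap_eq_inl_iff [Infinite k] {P : Place K F} {Q : Place k Fk₁} :
    N.rmap P = some (Sum.inl Q) ↔ N.HasPole₁ N.m₁ P Q := by
  classical
  unfold NodalSeed.rmap
  constructor
  · intro h
    split_ifs at h with h1 h2
    · have e : h1.choose = Q := Sum.inl.inj (Option.some.inj h)
      rw [← e]
      exact h1.choose_spec
    · exact absurd (Option.some.inj h) (by simp)
  · intro h
    have h1 : ∃ Q, N.HasPole₁ N.m₁ P Q := ⟨Q, h⟩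
    rw [dif_pos h1]
    exact congrArg (fun x => some (Sum.inl x)) (h1.choose_spec.unique le_rfl h)

theorem NodalSeed.rmap_eq_inr_iff [Infinite k] {P : Place K F} {Q : Place k Fk₂} :
    N.rmap P = some (Sum.inr Q) ↔ N.HasPole₂ N.m₁ P Q := by
  classical
  unfold NodalSeed.rmap
  constructor
  · intro h
    split_ifs at h with h1 h2
    · exact absurd (Option.some.inj h) (by simp)
    · have e : h2.choose = Q := Sum.inr.inj (Option.some.inj h)
      rw [← e]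
      exact h2.choose_spec
  · intro h
    have h1 : ¬ ∃ Q, N.HasPole₁ N.m₁ P Q := fun ⟨Q', hQ'⟩ => hQ'.not_hasPole₂ le_rfl h
    have h2 : ∃ Q, N.HasPole₂ N.m₁ P Q := ⟨Q, h⟩
    rw [dif_neg h1, dif_pos h2]
    exact congrArg (fun x => some (Sum.inr x)) (h2.choose_spec.unique le_rfl h)

theorem NodalSeed.rmap_eq_none_iff [Infinite k] {P : Place K F} :
    N.rmap P = none ↔ N.IsNodeType N.m₁ P := by
  classical
  unfold NodalSeed.rmap
  constructor
  · intro h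
    split_ifs at h with h1 h2
    rcases N.trichotomy le_rfl P with h3 | h3 | h3
    · exact absurd h3 h1
    · exact absurd h3 h2
    · exact h3
  · intro h
    have h1 : ¬ ∃ Q, N.HasPole₁ N.m₁ P Q := fun ⟨Q', hQ'⟩ => hQ'.not_isNodeType le_rfl h
    have h2 : ¬ ∃ Q, N.HasPole₂ N.m₁ P Q := fun ⟨Q', hQ'⟩ => hQ'.not_isNodeType le_rfl h
    rw [dif_neg h1, dif_neg h2]

/-- the type at every level `m ≥ m₁`, from the reduction map. -/
theorem NodalSeed.hasPole₁_of_rmap [Infinite k] {P : Place K F} {Q : Place k Fk₁}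
    (h : N.rmap P = some (Sum.inl Q)) {m : ℕ} (hm : N.m₁ ≤ m) : N.HasPole₁ m P Q :=
  (NodalSeed.rmap_eq_inl_iff.mp h).level le_rfl hm

theorem NodalSeed.hasPole₂_of_rmap [Infinite k] {P : Place K F} {Q : Place k Fk₂}
    (h : N.rmap P = some (Sum.inr Q)) {m : ℕ} (hm : N.m₁ ≤ m) : N.HasPole₂ m P Q :=
  (NodalSeed.rmap_eq_inr_iff.mp h).level le_rfl hm

theorem NodalSeed.isNodeType_of_rmap [Infinite k] {P : Place K F}
    (h : N.rmap P = none) {m : ℕ} (hm : N.m₁ ≤ m) : N.IsNodeType m P :=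
  (NodalSeed.rmap_eq_none_iff.mp h).level le_rfl hm

/-- the reduction map, from the type at some level `m ≥ m₁`. -/
theorem NodalSeed.rmap_of_hasPole₁ [Infinite k] {P : Place K F} {Q : Place k Fk₁} {m : ℕ}
    (hm : N.m₁ ≤ m) (h : N.HasPole₁ m P Q) : N.rmap P = some (Sum.inl Q) :=
  NodalSeed.rmap_eq_inl_iff.mpr (h.level hm le_rfl)

theorem NodalSeed.rmap_of_hasPole₂ [Infinite k] {P : Place K F} {Q : Place k Fk₂} {m : ℕ}
    (hm : N.m₁ ≤ m) (h : N.HasPole₂ m P Q) : N.rmap P = some (Sum.inr Q) :=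
  NodalSeed.rmap_eq_inr_iff.mpr (h.level hm le_rfl)

theorem NodalSeed.rmap_of_isNodeType [Infinite k] {P : Place K F} {m : ℕ}
    (hm : N.m₁ ≤ m) (h : N.IsNodeType m P) : N.rmap P = none :=
  NodalSeed.rmap_eq_none_iff.mpr (h.level hm le_rfl)

/-- a witness of the type `(1, Q)` at a level `m ≥ m₁`, in the weak form (a pole of order
`m R₁(Q) + 1` at `Q`), determines the reduction. -/
theorem NodalSeed.rmap_of_witness₁ [Infinite k] {P : Place K F} {Q : Place k Fk₁} {m : ℕ}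
    (hm : N.m₁ ≤ m) {f : F} (hf : N.toNodalCore.IsInt (m • N.D₀ + Finsupp.single P 1) f)
    (h1 : N.S₁.red f ≠ 0) (h2 : Q.ord (N.S₁.red f) = -((m • N.R₁) Q) - 1) :
    N.rmap P = some (Sum.inl Q) :=
  N.rmap_of_hasPole₁ hm ⟨f, hf, h1, h2⟩

theorem NodalSeed.rmap_of_witness₂ [Infinite k] {P : Place K F} {Q : Place k Fk₂} {m : ℕ}
    (hm : N.m₁ ≤ m) {f : F} (hf : N.toNodalCore.IsInt (m • N.D₀ + Finsupp.single P 1) f)
    (h1 : N.S₂.red f ≠ 0) (h2 : Q.ord (N.S₂.red f) = -((m • N.R₂) Q) - 1) :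
    N.rmap P = some (Sum.inr Q) :=
  N.rmap_of_hasPole₂ hm ⟨f, hf, h1, h2⟩

end Fermat.Agent.BadRed
end
end MergeWrap_Lib_BadRed_Nodal_Deuring2_TypeB
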