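import Mathlib
import Fermat.Agent.MUL.Lib.BadRed.Nodal.Deuring2.Push
import Fermat.Agent.MUL.Lib.BadRed.Nodal.Deuring2.TypeDef
import Fermat.Agent.MUL.Lib.BadRed.Nodal.Deuring2.TypeA
import Fermat.Agent.MUL.Lib.BadRed.Nodal.Deuring2.Assembly
import Fermat.Agent.MUL.Lib.BadRed.Nodal.Deuring2.TypeB
import Fermat.Agent.MUL.Lib.BadRed.Nodal.Deuring2.TypeDual
import Fermat.Agent.MUL.Lib.BadRed.Nodal.Deuring2.Canon
import Fermat.Agent.MUL.Lib.BadRed.Nodal.NSBuildLift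
import Fermat.Agent.MUL.Lib.BadRed.Nodal.ToricKeyDef
import Fermat.Agent.MUL.Lib.BadRed.Nodal.Gluing.Inertia
import Fermat.Agent.MUL.Lib.BadRed.Nodal.Gluing.Ordinary
import Fermat.Agent.MUL.Lib.BadRed.Nodal.Gluing.Main
import Fermat.Agent.MUL.Lib.BadRed.Nodal.KeyJacobi
import Fermat.Agent.MUL.Orig.Lib.Frobenius.Basic

section MergeWrap_Lib_BadRed_Nodal_Deuring2_PushUnit -- from Lib/BadRed/Nodal/Deuring2/PushUnit.lean

set_option autoImplicit false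
set_option linter.unusedSectionVars false

/-!
# Cluster T, WP N4, step S6: the PUSH equality for units of ONE valuation ring (helper18)

ABSTRACT form (one component `π`, one point `Q`), on top of `Push.lean` (S4, S5).
`Sπ` is the constant reduction of the component `π`, `S'` the other one.

* `Push.mapDomain_apply_eq_sum`, `Push.mapDomain_mono` : generalities on `Finsupp.mapDomain`;
* `PushHyp.mapDomain_le`, `PushHyp.mapDomain_eq` : S4, S5 in the `mapDomain` form;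
* `PushHyp.le_mapDomain_D₀` : `ρ ≤ (r_* D₀)(x)`;
* `PushHyp.mapDomain_exact` (S4') : for `e ∈ L(M D₀) ∩ O₁ ∩ O₂` whose reduction has a pole of
  exact order `M ρ` at `Q`: `(r_* div e)(x) = - M ρ`, provided `(r_* D₀)(x) ≤ ρ`;
* `PushHyp.push_unit` (**S6**) : `(r_* div g)(x) = ord_Q (red_π g)` for every unit `g` of
  `O_π`, if the valuation of `K` has rank one.
-/

noncomputable section

open AlgebraicCurve Fermat.Agent.RR Fermat.Agent.Deuring

namespace Fermat.Agent.BadRed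

namespace Push

section MapDomain

variable {α β : Type*}

theorem mapDomain_apply_eq_sum (r : α → β) (f : α →₀ ℤ) (x : β)
    [DecidablePred fun a => r a = x] :
    Finsupp.mapDomain r f x = ∑ a ∈ f.support with r a = x, f a := by
  classical
  rw [Finsupp.mapDomain, Finsupp.sum_apply, Finsupp.sum, Finset.sum_filter]
  refine Finset.sum_congr rfl fun a _ => ?_
  by_cases h : r a = x
  · rw [if_pos h, h, Finsupp.single_eq_same]
  · rw [if_neg h, Finsupp.single_eq_of_ne' h]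

theorem mapDomain_nonneg (r : α → β) {f : α →₀ ℤ} (hf : 0 ≤ f) (x : β) :
    0 ≤ Finsupp.mapDomain r f x := by
  classical
  rw [mapDomain_apply_eq_sum]
  exact Finset.sum_nonneg fun a _ => hf a

theorem mapDomain_mono (r : α → β) {f g : α →₀ ℤ} (h : f ≤ g) (x : β) :
    Finsupp.mapDomain r f x ≤ Finsupp.mapDomain r g x := by
  have h1 := mapDomain_nonneg r (sub_nonneg.mpr h) x
  have e : g = f + (g - f) := by abel
  rw [e, Finsupp.mapDomain_add, Finsupp.add_apply]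
  omega

theorem mapDomain_neg_apply (r : α → β) (f : α →₀ ℤ) (x : β) :
    Finsupp.mapDomain r (-f) x = -Finsupp.mapDomain r f x := by
  have h : Finsupp.mapDomain r (-f) + Finsupp.mapDomain r f = 0 := by
    rw [← Finsupp.mapDomain_add, neg_add_cancel, Finsupp.mapDomain_zero]
  have h2 := DFunLike.congr_fun h x
  rw [Finsupp.add_apply, Finsupp.coe_zero, Pi.zero_apply] at h2
  omega

theorem mapDomain_nsmul_apply (r : α → β) (n : ℕ) (f : α →₀ ℤ) (x : β) :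
    Finsupp.mapDomain r (n • f) x = n * Finsupp.mapDomain r f x := by
  induction n with
  | zero => simp
  | succ n ih =>
    rw [succ_nsmul, Finsupp.mapDomain_add, Finsupp.add_apply, ih]
    push_cast
    ring

end MapDomain

section RR

variable {K F : Type*} [Field K] [Field F] [Algebra K F]

theorem pow_mem_riemannRochSpace {D : Divisor K F} {f : F} (hf : f ∈ riemannRochSpace D)
    (n : ℕ) : f ^ n ∈ riemannRochSpace (n • D) := by
  induction n with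
  | zero =>
    rw [pow_zero, zero_smul]
    exact one_mem_riemannRochSpace_of_nonneg (le_refl _)
  | succ n ih =>
    rw [pow_succ, succ_nsmul]
    exact mul_mem_riemannRochSpace_add ih hf

/-- `div f ≥ - D` for `f ∈ L(D)`, `f ≠ 0`. -/
theorem neg_le_divOf (hF : IsRRField K F) {D : Divisor K F} {f : F}
    (hf : f ∈ riemannRochSpace D) (hf0 : f ≠ 0) : -D ≤ divOf hF f := by
  intro v
  rw [Finsupp.neg_apply, divOf_apply]
  exact (mem_riemannRochSpace_iff.mp hf v).resolve_left hf0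

theorem sum_eq_mapDomain (hF : IsRRField K F) {β : Type*} (r : Place K F → β) (x : β) (g : F)
    [DecidablePred fun P => r P = x] :
    ∑ P ∈ (divOf hF g).support with r P = x, P.ord g
      = Finsupp.mapDomain r (divOf hF g) x := by
  rw [mapDomain_apply_eq_sum]
  refine Finset.sum_congr rfl fun P _ => ?_
  rw [divOf_apply]

end RR

end Push

open Push

variable {K F k Fk₁ Fk₂ : Type*} [Field K] [Field F] [Algebra K F]
  [Field k] [Field Fk₁] [Algebra k Fk₁] [Field Fk₂] [Algebra k Fk₂] {ι : Type*}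

namespace PushHyp

variable {C : NodalCore K F k Fk₁ Fk₂ ι} {D₀ : Divisor K F} {Fk : Type*} [Field Fk]
  [Algebra k Fk] {π : Fk₁ × Fk₂ →ₐ[k] Fk} {Q : Place k Fk} {ρ : ℤ}
  {β : Type*} {r : Place K F → β} {x : β}

/-- S4 in the `mapDomain` form. -/
theorem mapDomain_le (H : PushHyp C D₀ π Q ρ (fun P => r P = x)) {g : F} (hg₁ : g ∈ C.S₁.Ov)
    (hg₂ : g ∈ C.S₂.Ov) (hπ : π (pairRed C.S₁ C.S₂ g) ≠ 0) :
    Finsupp.mapDomain r (divOf C.S₁.hF g) x ≤ Q.ord (π (pairRed C.S₁ C.S₂ g)) := by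
  classical
  rw [← sum_eq_mapDomain]
  exact H.sum_ord_le hg₁ hg₂ hπ

/-- S5 in the `mapDomain` form. -/
theorem mapDomain_eq (H : PushHyp C D₀ π Q ρ (fun P => r P = x)) {g : F} (hg₁ : g ∈ C.S₁.Ov)
    (hg₂ : g ∈ C.S₂.Ov) (hi₁ : g⁻¹ ∈ C.S₁.Ov) (hi₂ : g⁻¹ ∈ C.S₂.Ov) (hg0 : g ≠ 0) :
    Finsupp.mapDomain r (divOf C.S₁.hF g) x = Q.ord (π (pairRed C.S₁ C.S₂ g)) := by
  classical
  rw [← sum_eq_mapDomain]
  exact H.sum_ord_eq hg₁ hg₂ hi₁ hi₂ hg0

/-- the multiplicity of `x` in `r_* D₀` is at least `ρ`. -/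
theorem le_mapDomain_D₀ (H : PushHyp C D₀ π Q ρ (fun P => r P = x)) :
    ρ ≤ Finsupp.mapDomain r D₀ x := by
  obtain ⟨m₁, hm₁⟩ := H.exact₀
  obtain ⟨u, hu, hu0, huo⟩ := hm₁ (m₁ + 1) (Nat.le_succ _)
  obtain ⟨f, hf, rfl⟩ := (C.mem_V_iff _).mp hu
  have hf0 : f ≠ 0 := by
    rintro rfl
    apply hu0
    rw [C.red₂_def, C.S₁.red_zero, C.S₂.red_zero]
    exact map_zero π
  have h1 := H.mapDomain_le hf.2.1 hf.2.2 hu0
  have h2 := mapDomain_mono r (neg_le_divOf C.S₁.hF hf.1 hf0) x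
  rw [mapDomain_neg_apply, mapDomain_nsmul_apply] at h2
  have h3 : Q.ord (π (pairRed C.S₁ C.S₂ f)) = -(((m₁ + 1 : ℕ) : ℤ) * ρ) := huo
  rw [h3] at h1
  have h4 : ((m₁ + 1 : ℕ) : ℤ) * ρ ≤ ((m₁ + 1 : ℕ) : ℤ) * Finsupp.mapDomain r D₀ x := by
    omega
  have h5 : (0 : ℤ) < ((m₁ + 1 : ℕ) : ℤ) := by positivity
  exact le_of_mul_le_mul_left h4 h5

/-- (S4') the push equality for a function of `L(M D₀) ∩ O₁ ∩ O₂` whose reduction has a pole
of exact order `M ρ` at `Q`. -/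
theorem mapDomain_exact (H : PushHyp C D₀ π Q ρ (fun P => r P = x))
    (hpush₀ : Finsupp.mapDomain r D₀ x ≤ ρ) {M : ℕ} {e : F} (he : C.IsInt (M • D₀) e)
    (he0 : π (pairRed C.S₁ C.S₂ e) ≠ 0)
    (heo : Q.ord (π (pairRed C.S₁ C.S₂ e)) = -(M * ρ)) :
    Finsupp.mapDomain r (divOf C.S₁.hF e) x = -(M * ρ) := by
  have hf0 : e ≠ 0 := by
    rintro rfl
    apply he0
    rw [pairRed_zero, map_zero]
  apply le_antisymm
  · rw [← heo]
    exact H.mapDomain_le he.2.1 he.2.2 he0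
  · have h2 := mapDomain_mono r (neg_le_divOf C.S₁.hF he.1 hf0) x
    rw [mapDomain_neg_apply, mapDomain_nsmul_apply] at h2
    have h3 : (M : ℤ) * Finsupp.mapDomain r D₀ x ≤ M * ρ :=
      mul_le_mul_of_nonneg_left hpush₀ (Int.natCast_nonneg M)
    omega

/-- the core of S6: a unit `g` of `O_π` such that `g / c` is a unit of `O'`, `c ∈ A`. -/
theorem push_unit_aux (H : PushHyp C D₀ π Q ρ (fun P => r P = x))
    {Fk' : Type*} [Field Fk'] [Algebra k Fk']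
    (Sπ : ValSetup K F k Fk) (S' : ValSetup K F k Fk')
    (hO : ∀ f : F, (f ∈ C.S₁.Ov ∧ f ∈ C.S₂.Ov) ↔ (f ∈ Sπ.Ov ∧ f ∈ S'.Ov))
    (hπ : ∀ f : F, f ∈ C.S₁.Ov → f ∈ C.S₂.Ov → π (pairRed C.S₁ C.S₂ f) = Sπ.red f)
    (hA : Sπ.A = S'.A)
    (arch : ∀ c : K, c ∈ Sπ.A → c⁻¹ ∉ Sπ.A → ∀ d : K, ∃ j : ℕ, c ^ j * d ∈ Sπ.A)
    (hD₀ : 0 ≤ D₀)
    (hexact : ∃ (m : ℕ) (e₀ : F), C.IsInt (m • D₀) e₀ ∧ Sπ.red e₀ ≠ 0 ∧
      Q.ord (Sπ.red e₀) = -(m * ρ) ∧ S'.red e₀ = 0)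
    (hpush₀ : Finsupp.mapDomain r D₀ x ≤ ρ)
    {g : F} (hg : g ∈ Sπ.Ov) (hgi : g⁻¹ ∈ Sπ.Ov) (hg0 : g ≠ 0)
    {c : K} (hc0 : c ≠ 0) (hcA : c ∈ Sπ.A)
    (hgc : g * (algebraMap K F c)⁻¹ ∈ S'.Ov) (hgci : (g * (algebraMap K F c)⁻¹)⁻¹ ∈ S'.Ov) :
    Finsupp.mapDomain r (divOf C.S₁.hF g) x = Q.ord (Sπ.red g) := by
  have hc0' : algebraMap K F c ≠ 0 := (map_ne_zero (algebraMap K F)).mpr hc0
  have hcA' : c ∈ S'.A := hA ▸ hcA
  -- the push equality for units of both rings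
  have hboth : ∀ u : F, u ∈ Sπ.Ov → u⁻¹ ∈ Sπ.Ov → u ∈ S'.Ov → u⁻¹ ∈ S'.Ov → u ≠ 0 →
      Finsupp.mapDomain r (divOf C.S₁.hF u) x = Q.ord (Sπ.red u) := by
    intro u h1 h2 h3 h4 h5
    have hu := (hO u).mpr ⟨h1, h3⟩
    have hui := (hO u⁻¹).mpr ⟨h2, h4⟩
    rw [H.mapDomain_eq hu.1 hu.2 hui.1 hui.2 h5, hπ u hu.1 hu.2]
  by_cases hci : c⁻¹ ∈ Sπ.A
  · -- `c` is a unit of `A`: `g` is a unit of `O'`
    have hci' : c⁻¹ ∈ S'.A := hA ▸ hci
    have h3 : g ∈ S'.Ov := by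
      have e : g = g * (algebraMap K F c)⁻¹ * algebraMap K F c := by
        field_simp
      rw [e]
      exact mul_mem hgc (S'.algebraMap_mem hcA')
    have h4 : g⁻¹ ∈ S'.Ov := by
      have e : g⁻¹ = (g * (algebraMap K F c)⁻¹)⁻¹ * algebraMap K F c⁻¹ := by
        rw [map_inv₀]
        field_simp
      rw [e]
      exact mul_mem hgci (S'.algebraMap_mem hci')
    exact hboth g hg hgi h3 h4 hg0
  · -- `c` lies in the maximal ideal of `A`
    obtain ⟨m, e₀, he₀, he₀0, he₀o, he₀'⟩ := hexact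
    have he₀π : e₀ ∈ Sπ.Ov ∧ e₀ ∈ S'.Ov := (hO e₀).mp ⟨he₀.2.1, he₀.2.2⟩
    have he₀ne : e₀ ≠ 0 := Sπ.ne_zero_of_red_ne_zero he₀0
    have he₀i : e₀⁻¹ ∉ S'.Ov := (S'.red_eq_zero_iff he₀π.2 he₀ne).mp he₀'
    -- the absolute value of `e₀` for the second valuation
    obtain ⟨a₀, ha₀, hs1, hs2⟩ := S'.scale e₀ he₀ne
    have ha₀' : algebraMap K F a₀ ≠ 0 := (map_ne_zero (algebraMap K F)).mpr ha₀
    have ha₀A : a₀ ∈ Sπ.A := by
      rw [hA, ← S'.mem_Ov_iff]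
      have e : algebraMap K F a₀ = e₀ * (e₀ * (algebraMap K F a₀)⁻¹)⁻¹ := by
        field_simp
      rw [e]
      exact mul_mem he₀π.2 hs2
    have ha₀i : a₀⁻¹ ∉ Sπ.A := by
      intro h
      apply he₀i
      have h' : a₀⁻¹ ∈ S'.A := hA ▸ h
      have e : e₀⁻¹ = (e₀ * (algebraMap K F a₀)⁻¹)⁻¹ * algebraMap K F a₀⁻¹ := by
        rw [map_inv₀]
        field_simp
      rw [e]
      exact mul_mem hs2 (S'.algebraMap_mem h')
    obtain ⟨j, hj⟩ := arch a₀ ha₀A ha₀i c⁻¹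
    set n : ℕ := j + 1 with hn
    -- `b = a₀ ^ n / c` lies in the maximal ideal of `A`
    set b : K := a₀ ^ n * c⁻¹ with hb
    have hbA : b ∈ Sπ.A := by
      have e : b = a₀ * (a₀ ^ j * c⁻¹) := by
        rw [hb, hn, pow_succ]
        ring
      rw [e]
      exact mul_mem ha₀A hj
    have hbi : b⁻¹ ∉ Sπ.A := by
      intro h
      apply ha₀i
      have e : a₀⁻¹ = b⁻¹ * (a₀ ^ j * c⁻¹) := by
        rw [hb, hn, pow_succ]
        field_simp
      rw [e]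
      exact mul_mem h hj
    have hbA' : b ∈ S'.A := hA ▸ hbA
    have hbres : S'.res ⟨b, hbA'⟩ = 0 := by
      have hbi' : b⁻¹ ∉ S'.A := fun h => hbi (hA ▸ h)
      obtain ⟨h1, h2⟩ := S'.res_inv_eq_zero hbi'
      have e : (⟨b, hbA'⟩ : S'.A) = ⟨b⁻¹⁻¹, h1⟩ := Subtype.ext (inv_inv b).symm
      rw [e]
      exact h2
    have hcres : Sπ.res ⟨c, hcA⟩ = 0 := by
      obtain ⟨h1, h2⟩ := Sπ.res_inv_eq_zero hci
      have e : (⟨c, hcA⟩ : Sπ.A) = ⟨c⁻¹⁻¹, h1⟩ := Subtype.ext (inv_inv c).symm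
      rw [e]
      exact h2
    -- the auxiliary function
    set e : F := e₀ ^ n + algebraMap K F c with he
    have heπ : e ∈ Sπ.Ov := add_mem (pow_mem he₀π.1 n) (Sπ.algebraMap_mem hcA)
    have he' : e ∈ S'.Ov := add_mem (pow_mem he₀π.2 n) (S'.algebraMap_mem hcA')
    have hredπ : Sπ.red e = Sπ.red e₀ ^ n := by
      rw [he, Sπ.red_add (pow_mem he₀π.1 n) (Sπ.algebraMap_mem hcA), Sπ.red_pow he₀π.1,
        Sπ.red_algebraMap hcA, hcres, map_zero, add_zero]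
    have hredπ0 : Sπ.red e ≠ 0 := by
      rw [hredπ]
      exact pow_ne_zero n he₀0
    have hene : e ≠ 0 := Sπ.ne_zero_of_red_ne_zero hredπ0
    have heiπ : e⁻¹ ∈ Sπ.Ov := Sπ.inv_mem_of_red_ne_zero hredπ0
    have hordπ : Q.ord (Sπ.red e) = -(((n * m : ℕ) : ℤ) * ρ) := by
      have hz := Q.ord_zpow (Sπ.red e₀) (n : ℤ)
      rw [zpow_natCast] at hz
      rw [hredπ, hz, he₀o]
      push_cast
      ring
    -- `e / c = 1 + b (e₀ / a₀) ^ n` is a unit of `O'`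
    set t : F := e₀ * (algebraMap K F a₀)⁻¹ with ht
    have hec : e * (algebraMap K F c)⁻¹ = b • t ^ n + 1 := by
      rw [he, ht, hb, Algebra.smul_def, map_mul, map_pow, map_inv₀, mul_pow, inv_pow]
      field_simp
    have hec' : e * (algebraMap K F c)⁻¹ ∈ S'.Ov := by
      rw [hec]
      exact add_mem (S'.smul_mem hbA' (pow_mem hs1 n)) (one_mem _)
    have hecred : S'.red (e * (algebraMap K F c)⁻¹) = 1 := by
      rw [hec, S'.red_add (S'.smul_mem hbA' (pow_mem hs1 n)) (one_mem _),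
        S'.red_smul hbA' (pow_mem hs1 n), hbres, zero_smul, zero_add, S'.red_one]
    have heci : (e * (algebraMap K F c)⁻¹)⁻¹ ∈ S'.Ov :=
      S'.inv_mem_of_red_ne_zero (by rw [hecred]; exact one_ne_zero)
    -- `u = g / e` is a unit of both rings
    set u : F := g * e⁻¹ with hu
    have hu0 : u ≠ 0 := mul_ne_zero hg0 (inv_ne_zero hene)
    have huπ : u ∈ Sπ.Ov := mul_mem hg heiπ
    have huiπ : u⁻¹ ∈ Sπ.Ov := by
      have e1 : u⁻¹ = g⁻¹ * e := by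
        rw [hu, mul_inv, inv_inv]
      rw [e1]
      exact mul_mem hgi heπ
    have hu' : u ∈ S'.Ov := by
      have e1 : u = g * (algebraMap K F c)⁻¹ * (e * (algebraMap K F c)⁻¹)⁻¹ := by
        rw [hu]
        field_simp
      rw [e1]
      exact mul_mem hgc heci
    have hui' : u⁻¹ ∈ S'.Ov := by
      have e1 : u⁻¹ = (g * (algebraMap K F c)⁻¹)⁻¹ * (e * (algebraMap K F c)⁻¹) := by
        rw [hu]
        field_simp
      rw [e1]
      exact mul_mem hgci hec'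
    have h1 := hboth u huπ huiπ hu' hui' hu0
    -- the push equality for `e`
    have heInt : C.IsInt ((n * m) • D₀) e := by
      have h12 := (hO e).mpr ⟨heπ, he'⟩
      refine ⟨?_, h12.1, h12.2⟩
      rw [he]
      apply Submodule.add_mem
      · rw [mul_smul]
        exact pow_mem_riemannRochSpace he₀.1 n
      · rw [Algebra.algebraMap_eq_smul_one]
        exact Submodule.smul_mem _ _
          (one_mem_riemannRochSpace_of_nonneg (nsmul_nonneg hD₀ _))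
    have hπe : π (pairRed C.S₁ C.S₂ e) = Sπ.red e := hπ e heInt.2.1 heInt.2.2
    have h2 := H.mapDomain_exact hpush₀ heInt (by rw [hπe]; exact hredπ0)
      (by rw [hπe]; exact hordπ)
    -- conclusion
    have hge : g = u * e := by
      rw [hu]
      field_simp
    have hdiv : divOf C.S₁.hF g = divOf C.S₁.hF u + divOf C.S₁.hF e := by
      conv_lhs => rw [hge]
      exact divOf_mul C.S₁.hF hu0 hene
    have hredu : Sπ.red g = Sπ.red u * Sπ.red e := by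
      conv_lhs => rw [hge]
      exact Sπ.red_mul huπ heπ
    have hredu0 : Sπ.red u ≠ 0 := Sπ.red_ne_zero huπ huiπ hu0
    rw [hdiv, Finsupp.mapDomain_add, Finsupp.add_apply, h1, h2, hredu,
      Q.ord_mul hredu0 hredπ0, hordπ]

/-- **S6, the PUSH equality for the units of `O_π`**. -/
theorem push_unit (H : PushHyp C D₀ π Q ρ (fun P => r P = x))
    {Fk' : Type*} [Field Fk'] [Algebra k Fk']
    (Sπ : ValSetup K F k Fk) (S' : ValSetup K F k Fk')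
    (hO : ∀ f : F, (f ∈ C.S₁.Ov ∧ f ∈ C.S₂.Ov) ↔ (f ∈ Sπ.Ov ∧ f ∈ S'.Ov))
    (hπ : ∀ f : F, f ∈ C.S₁.Ov → f ∈ C.S₂.Ov → π (pairRed C.S₁ C.S₂ f) = Sπ.red f)
    (hA : Sπ.A = S'.A)
    (arch : ∀ c : K, c ∈ Sπ.A → c⁻¹ ∉ Sπ.A → ∀ d : K, ∃ j : ℕ, c ^ j * d ∈ Sπ.A)
    (hD₀ : 0 ≤ D₀)
    (hexact : ∃ (m : ℕ) (e₀ : F), C.IsInt (m • D₀) e₀ ∧ Sπ.red e₀ ≠ 0 ∧
      Q.ord (Sπ.red e₀) = -(m * ρ) ∧ S'.red e₀ = 0)
    (hpush₀ : Finsupp.mapDomain r D₀ x ≤ ρ)
    {g : F} (hg : g ∈ Sπ.Ov) (hgi : g⁻¹ ∈ Sπ.Ov) (hg0 : g ≠ 0) :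
    Finsupp.mapDomain r (divOf C.S₁.hF g) x = Q.ord (Sπ.red g) := by
  obtain ⟨c, hc0, hs1, hs2⟩ := S'.scale g hg0
  have hc0' : algebraMap K F c ≠ 0 := (map_ne_zero (algebraMap K F)).mpr hc0
  by_cases hcA : c ∈ Sπ.A
  · exact H.push_unit_aux Sπ S' hO hπ hA arch hD₀ hexact hpush₀ hg hgi hg0 hc0 hcA hs1 hs2
  · -- pass to `g⁻¹` and `c⁻¹`
    have hciA : c⁻¹ ∈ Sπ.A := (Sπ.A.mem_or_inv_mem c).resolve_left hcA
    have h1 : g⁻¹ * (algebraMap K F c⁻¹)⁻¹ ∈ S'.Ov := by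
      have e : g⁻¹ * (algebraMap K F c⁻¹)⁻¹ = (g * (algebraMap K F c)⁻¹)⁻¹ := by
        rw [map_inv₀]
        field_simp
      rw [e]
      exact hs2
    have h2 : (g⁻¹ * (algebraMap K F c⁻¹)⁻¹)⁻¹ ∈ S'.Ov := by
      have e : (g⁻¹ * (algebraMap K F c⁻¹)⁻¹)⁻¹ = g * (algebraMap K F c)⁻¹ := by
        rw [map_inv₀]
        field_simp
      rw [e]
      exact hs1
    have h3 := H.push_unit_aux Sπ S' hO hπ hA arch hD₀ hexact hpush₀ hgi
      (by rwa [inv_inv]) (inv_ne_zero hg0) (inv_ne_zero hc0) hciA h1 h2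
    rw [divOf_inv, mapDomain_neg_apply, Sπ.red_inv hg hgi hg0, Place.ord_inv] at h3
    omega

end PushHyp

end Fermat.Agent.BadRed
end
end MergeWrap_Lib_BadRed_Nodal_Deuring2_PushUnit

section MergeWrap_Lib_BadRed_Nodal_Deuring2_PushDef -- from Lib/BadRed/Nodal/Deuring2/PushDef.lean

set_option autoImplicit false

/-!
# Cluster T, WP N4: the push statement for TWO-SIDED units (interface)

`NodalType.PushTwo₁`, `NodalType.PushTwo₂` : `r_* (div f) = div (red f)` at the smooth points,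
for the units of BOTH valuation rings (S5, proved in `PushTwo.lean`; hypothesis of S6,
`PushOne.lean`).
-/

noncomputable section

open AlgebraicCurve Fermat.Agent.RR Fermat.Agent.Deuring

namespace Fermat.Agent.BadRed

variable {K F k Fk₁ Fk₂ : Type*} [Field K] [Field F] [Algebra K F]
  [Field k] [Field Fk₁] [Algebra k Fk₁] [Field Fk₂] [Algebra k Fk₂] {ι : Type*} [Fintype ι]
  {N : NodalSeed K F k Fk₁ Fk₂ ι}

/-- push on the first component, for the units of both valuation rings. -/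
def NodalType.PushTwo₁ (T : NodalType N) : Prop :=
  ∀ f : F, f ∈ N.S₁.Ov → f⁻¹ ∈ N.S₁.Ov → f ∈ N.S₂.Ov → f⁻¹ ∈ N.S₂.Ov → f ≠ 0 →
    ∀ Q : Place k Fk₁, (∀ i, Q ≠ N.s₁ i) →
      Finsupp.mapDomain T.r (divOf N.S₁.hF f) (some (Sum.inl Q)) = Q.ord (N.S₁.red f)

/-- push on the second component, for the units of both valuation rings. -/
def NodalType.PushTwo₂ (T : NodalType N) : Prop :=
  ∀ f : F, f ∈ N.S₁.Ov → f⁻¹ ∈ N.S₁.Ov → f ∈ N.S₂.Ov → f⁻¹ ∈ N.S₂.Ov → f ≠ 0 →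
    ∀ Q : Place k Fk₂, (∀ i, Q ≠ N.s₂ i) →
      Finsupp.mapDomain T.r (divOf N.S₁.hF f) (some (Sum.inr Q)) = Q.ord (N.S₂.red f)

end Fermat.Agent.BadRed
end
end MergeWrap_Lib_BadRed_Nodal_Deuring2_PushDef

section MergeWrap_Lib_BadRed_Nodal_Deuring2_PushTwo -- from Lib/BadRed/Nodal/Deuring2/PushTwo.lean

set_option autoImplicit false
set_option linter.unusedSectionVars false

/-!
# Cluster T, WP N4: the PUSH equality for the two-sided units of a `NodalType` (helper18)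

Abstract part (on top of `Push.lean`, `PushUnit.lean`):
* `PushHyp.divOf_apply_of_exact` (X) : if `f ∈ 𝔏(m D₀)` has a reduction with a pole of EXACT order
  `m ρ` at `Q`, then `ord_P f = - m D₀(P)` at every place `P` reducing to `Q`;
* `PushHyp.mapDomain_D₀_eq` (F3) : `(r_* D₀)(x) = ρ`, as soon as some two-sided unit of
  `𝔏(m D₀)`, `m > 0`, has a reduction with a pole of exact order `m ρ` at `Q`.

Concrete part (`T : NodalType N`, `Q` a smooth point):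
* `NodalSeed.pt_exists_unit₁/₂` : two-sided units of `𝔏(m D₀)` of exact order at `Q`;
* `NodalType.pushHyp₁/₂` : the hypotheses `PushHyp` hold;
* `NodalType.pushTwo₁ : T.PushTwo₁`, `NodalType.pushTwo₂ : T.PushTwo₂` (**S5**);
* `NodalType.mapDomain_D₀₁/₂` (F3) : `r_* D₀ = R₁ + R₂` at the smooth points.
-/

noncomputable section

open AlgebraicCurve Fermat.Agent.RR Fermat.Agent.Deuring

namespace Fermat.Agent.BadRed

open Push

variable {K F k Fk₁ Fk₂ : Type*} [Field K] [Field F] [Algebra K F]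
  [Field k] [Field Fk₁] [Algebra k Fk₁] [Field Fk₂] [Algebra k Fk₂] {ι : Type*}

namespace PushHyp

variable {C : NodalCore K F k Fk₁ Fk₂ ι} {D₀ : Divisor K F} {Fk : Type*} [Field Fk]
  [Algebra k Fk] {π : Fk₁ × Fk₂ →ₐ[k] Fk} {Q : Place k Fk} {ρ : ℤ}

/-- (X) a function of `𝔏(m D₀)` whose reduction has a pole of exact order `m ρ` at `Q` has a
pole of exact order `m D₀(P)` at every place `P` reducing to `Q`. -/
theorem divOf_apply_of_exact {toQ : Place K F → Prop} (H : PushHyp C D₀ π Q ρ toQ) {m : ℕ}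
    {f : F} (hf : C.IsInt (m • D₀) f) (hf0 : π (pairRed C.S₁ C.S₂ f) ≠ 0)
    (hfo : Q.ord (π (pairRed C.S₁ C.S₂ f)) = -(m * ρ)) {P : Place K F} (hP : toQ P) :
    divOf C.S₁.hF f P = -(m * D₀ P) := by
  classical
  have hfne : f ≠ 0 := by
    rintro rfl
    apply hf0
    rw [pairRed_zero, map_zero]
  rw [divOf_apply]
  have hmem := mem_riemannRochSpace_iff.mp hf.1
  have hge : -(m * D₀ P) ≤ P.ord f := by
    have := (hmem P).resolve_left hfne
    rwa [Finsupp.smul_apply, nsmul_eq_mul] at this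
  by_contra hne
  have hgt : -(m * D₀ P) + 1 ≤ P.ord f := by
    have : -(m * D₀ P) ≠ P.ord f := fun h => hne h.symm
    omega
  -- `f ∈ L(m D₀ - P)`
  have hf' : C.IsInt (m • D₀ - Finsupp.single P 1) f := by
    refine ⟨?_, hf.2.1, hf.2.2⟩
    rw [mem_riemannRochSpace_iff]
    intro v
    right
    by_cases hv : v = P
    · subst hv
      rw [Finsupp.sub_apply, Finsupp.smul_apply, nsmul_eq_mul, Finsupp.single_eq_same]
      omega
    · rw [Finsupp.sub_apply, Finsupp.single_eq_of_ne hv, sub_zero]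
      exact (hmem v).resolve_left hfne
  obtain ⟨m', w, hw, hw0, hwo⟩ := H.pole P hP
  have h1 : pairRed C.S₁ C.S₂ f * w ∈ C.V ((m + m') • D₀) := by
    have h := Push.mul_mem_V C (C.red₂_mem_V hf') hw
    have e : (m • D₀ - Finsupp.single P 1) + (m' • D₀ + Finsupp.single P 1) = (m + m') • D₀ := by
      rw [add_smul]
      abel
    rw [e] at h
    exact h
  have h2 := H.base (m + m') _ h1
  rw [map_mul] at h2
  have h3 := le_of_mem_ordGE h2 (mul_ne_zero hf0 hw0)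
  rw [Q.ord_mul hf0 hw0, hfo, hwo] at h3
  push_cast at h3
  linarith

variable {β : Type*} {r : Place K F → β} {x : β}

/-- (F3) `(r_* D₀)(x) = ρ`. -/
theorem mapDomain_D₀_eq (H : PushHyp C D₀ π Q ρ (fun P => r P = x)) {m : ℕ} (hm : 0 < m)
    {u : F} (hu : C.IsInt (m • D₀) u) (hi₁ : u⁻¹ ∈ C.S₁.Ov) (hi₂ : u⁻¹ ∈ C.S₂.Ov)
    (hu0 : π (pairRed C.S₁ C.S₂ u) ≠ 0)
    (huo : Q.ord (π (pairRed C.S₁ C.S₂ u)) = -(m * ρ)) :
    Finsupp.mapDomain r D₀ x = ρ := by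
  classical
  have hune : u ≠ 0 := by
    rintro rfl
    apply hu0
    rw [pairRed_zero, map_zero]
  have h5 := H.mapDomain_eq hu.2.1 hu.2.2 hi₁ hi₂ hune
  rw [huo] at h5
  -- the divisor `div u + m D₀` vanishes at the places reducing to `Q`
  have h6 : Finsupp.mapDomain r (divOf C.S₁.hF u + m • D₀) x = 0 := by
    rw [mapDomain_apply_eq_sum]
    refine Finset.sum_eq_zero fun P hP => ?_
    have hPx : r P = x := (Finset.mem_filter.mp hP).2
    rw [Finsupp.add_apply, H.divOf_apply_of_exact hu hu0 huo hPx, Finsupp.smul_apply,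
      nsmul_eq_mul]
    ring
  rw [Finsupp.mapDomain_add, Finsupp.add_apply, mapDomain_nsmul_apply, h5] at h6
  have h7 : (m : ℤ) * Finsupp.mapDomain r D₀ x = m * ρ := by omega
  have hm' : (m : ℤ) ≠ 0 := by exact_mod_cast hm.ne'
  exact mul_left_cancel₀ hm' h7

end PushHyp

/-! ### the concrete instance -/

variable [Fintype ι] {N : NodalSeed K F k Fk₁ Fk₂ ι}

/-- two-sided units of `𝔏(m D₀)` whose first reduction has exact order `-m R₁(Q)` at `Q`. -/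
theorem NodalSeed.pt_exists_unit₁ [Infinite k] (N : NodalSeed K F k Fk₁ Fk₂ ι) {m : ℕ}
    (hm : N.m₁ ≤ m) (Q : Place k Fk₁) (hQ : ∀ i, Q ≠ N.s₁ i) :
    ∃ u : F, N.toNodalCore.IsInt (m • N.D₀) u ∧ N.S₁.red u ≠ 0 ∧ N.S₂.red u ≠ 0 ∧
      Q.ord (N.S₁.red u) = -((m : ℤ) * N.R₁ Q) := by
  classical
  obtain ⟨y, hy, hy1, hy2, -, -, hyT, -⟩ := exists_nodal_pair N.S₁.hFk N.S₂.hFk N.s₁ N.s₂
    N.s₁_inj N.s₂_inj (m • N.R₁) (m • N.R₂) (N.smul_R₁_node m) (N.smul_R₂_node m) {Q} ∅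
    (fun Q' hQ' i => by rw [Finset.mem_singleton.mp hQ']; exact hQ i)
    (fun Q' hQ' => absurd hQ' (Finset.notMem_empty _)) (N.hdeg₁ hm) (N.hdeg₂ hm) (fun _ => 1)
  obtain ⟨u, hu, hu₁, hu₂, hr₁, hr₂⟩ :=
    N.exists_lift (N.m₀_le_of_m₁_le hm) (a := y.1) (b := y.2) hy
  refine ⟨u, ⟨hu, hu₁, hu₂⟩, ?_, ?_, ?_⟩
  · rw [hr₁]
    exact hy1
  · rw [hr₂]
    exact hy2
  · rw [hr₁, hyT Q (Finset.mem_singleton_self Q), Finsupp.smul_apply, nsmul_eq_mul]

/-- two-sided units of `𝔏(m D₀)` whose second reduction has exact order `-m R₂(Q)` at `Q`. -/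
theorem NodalSeed.pt_exists_unit₂ [Infinite k] (N : NodalSeed K F k Fk₁ Fk₂ ι) {m : ℕ}
    (hm : N.m₁ ≤ m) (Q : Place k Fk₂) (hQ : ∀ i, Q ≠ N.s₂ i) :
    ∃ u : F, N.toNodalCore.IsInt (m • N.D₀) u ∧ N.S₁.red u ≠ 0 ∧ N.S₂.red u ≠ 0 ∧
      Q.ord (N.S₂.red u) = -((m : ℤ) * N.R₂ Q) := by
  classical
  obtain ⟨y, hy, hy1, hy2, -, -, -, hyT⟩ := exists_nodal_pair N.S₁.hFk N.S₂.hFk N.s₁ N.s₂
    N.s₁_inj N.s₂_inj (m • N.R₁) (m • N.R₂) (N.smul_R₁_node m) (N.smul_R₂_node m) ∅ {Q}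
    (fun Q' hQ' => absurd hQ' (Finset.notMem_empty _))
    (fun Q' hQ' i => by rw [Finset.mem_singleton.mp hQ']; exact hQ i)
    (N.hdeg₁ hm) (N.hdeg₂ hm) (fun _ => 1)
  obtain ⟨u, hu, hu₁, hu₂, hr₁, hr₂⟩ :=
    N.exists_lift (N.m₀_le_of_m₁_le hm) (a := y.1) (b := y.2) hy
  refine ⟨u, ⟨hu, hu₁, hu₂⟩, ?_, ?_, ?_⟩
  · rw [hr₁]
    exact hy1
  · rw [hr₂]
    exact hy2
  · rw [hr₂, hyT Q (Finset.mem_singleton_self Q), Finsupp.smul_apply, nsmul_eq_mul]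

namespace NodalType

variable [Infinite k] (T : NodalType N)

/-- the hypotheses of the push inequality, first component. -/
theorem pushHyp₁ (Q : Place k Fk₁) (hQ : ∀ i, Q ≠ N.s₁ i) :
    PushHyp N.toNodalCore N.D₀ (AlgHom.fst k Fk₁ Fk₂) Q (N.R₁ Q)
      (fun P => T.r P = some (Sum.inl Q)) where
  base := by
    intro m y hy
    have h1 := (N.V_le m hy).1
    rw [mem_ordGE]
    rcases mem_riemannRochSpace_iff.mp h1 Q with h | h
    · exact Or.inl h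
    · right
      rw [Finsupp.smul_apply, nsmul_eq_mul] at h
      exact h
  exact₀ := by
    refine ⟨N.m₁, fun m hm => ?_⟩
    obtain ⟨u, hu, hu1, -, huo⟩ := N.pt_exists_unit₁ hm Q hQ
    exact ⟨N.toNodalCore.red₂ u, N.toNodalCore.red₂_mem_V hu, hu1, huo⟩
  pole := by
    intro P hP
    obtain ⟨m, f, hf, hf0, hfo⟩ := T.pole₁ P Q hP
    refine ⟨m, N.toNodalCore.red₂ f, N.toNodalCore.red₂_mem_V hf, hf0, ?_⟩
    rw [Finsupp.smul_apply, nsmul_eq_mul] at hfo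
    exact hfo
  away := by
    intro P hP
    obtain ⟨m, f, hf, hf0, hfo⟩ := T.unit₁ P Q hQ hP
    refine ⟨m, N.toNodalCore.red₂ f, N.toNodalCore.red₂_mem_V hf, hf0, ?_⟩
    rw [Finsupp.smul_apply, nsmul_eq_mul] at hfo
    exact hfo

/-- the hypotheses of the push inequality, second component. -/
theorem pushHyp₂ (Q : Place k Fk₂) (hQ : ∀ i, Q ≠ N.s₂ i) :
    PushHyp N.toNodalCore N.D₀ (AlgHom.snd k Fk₁ Fk₂) Q (N.R₂ Q)
      (fun P => T.r P = some (Sum.inr Q)) where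
  base := by
    intro m y hy
    have h1 := (N.V_le m hy).2.1
    rw [mem_ordGE]
    rcases mem_riemannRochSpace_iff.mp h1 Q with h | h
    · exact Or.inl h
    · right
      rw [Finsupp.smul_apply, nsmul_eq_mul] at h
      exact h
  exact₀ := by
    refine ⟨N.m₁, fun m hm => ?_⟩
    obtain ⟨u, hu, -, hu2, huo⟩ := N.pt_exists_unit₂ hm Q hQ
    exact ⟨N.toNodalCore.red₂ u, N.toNodalCore.red₂_mem_V hu, hu2, huo⟩
  pole := by
    intro P hP
    obtain ⟨m, f, hf, hf0, hfo⟩ := T.pole₂ P Q hP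
    refine ⟨m, N.toNodalCore.red₂ f, N.toNodalCore.red₂_mem_V hf, hf0, ?_⟩
    rw [Finsupp.smul_apply, nsmul_eq_mul] at hfo
    exact hfo
  away := by
    intro P hP
    obtain ⟨m, f, hf, hf0, hfo⟩ := T.unit₂ P Q hQ hP
    refine ⟨m, N.toNodalCore.red₂ f, N.toNodalCore.red₂_mem_V hf, hf0, ?_⟩
    rw [Finsupp.smul_apply, nsmul_eq_mul] at hfo
    exact hfo

/-- **S5**, first component: push for the units of both valuation rings. -/
theorem pushTwo₁ : T.PushTwo₁ := by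
  intro f h1 h1i h2 h2i hf0 Q hQ
  exact (T.pushHyp₁ Q hQ).mapDomain_eq h1 h2 h1i h2i hf0

/-- **S5**, second component: push for the units of both valuation rings. -/
theorem pushTwo₂ : T.PushTwo₂ := by
  intro f h1 h1i h2 h2i hf0 Q hQ
  exact (T.pushHyp₂ Q hQ).mapDomain_eq h1 h2 h1i h2i hf0

/-- (F3) `r_* D₀ = R₁` at the smooth points of the first component. -/
theorem mapDomain_D₀₁ (Q : Place k Fk₁) (hQ : ∀ i, Q ≠ N.s₁ i) :
    Finsupp.mapDomain T.r N.D₀ (some (Sum.inl Q)) = N.R₁ Q := by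
  have hm : N.m₁ ≤ N.m₁ + 1 := Nat.le_succ _
  obtain ⟨u, hu, hu1, hu2, huo⟩ := N.pt_exists_unit₁ hm Q hQ
  have huo' : Q.ord ((AlgHom.fst k Fk₁ Fk₂) (pairRed N.S₁ N.S₂ u))
      = -(((N.m₁ + 1 : ℕ) : ℤ) * N.R₁ Q) := huo
  exact (T.pushHyp₁ Q hQ).mapDomain_D₀_eq (Nat.succ_pos _) hu
    (N.S₁.inv_mem_of_red_ne_zero hu1) (N.S₂.inv_mem_of_red_ne_zero hu2) hu1 huo'

/-- (F3) `r_* D₀ = R₂` at the smooth points of the second component. -/
theorem mapDomain_D₀₂ (Q : Place k Fk₂) (hQ : ∀ i, Q ≠ N.s₂ i) :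
    Finsupp.mapDomain T.r N.D₀ (some (Sum.inr Q)) = N.R₂ Q := by
  have hm : N.m₁ ≤ N.m₁ + 1 := Nat.le_succ _
  obtain ⟨u, hu, hu1, hu2, huo⟩ := N.pt_exists_unit₂ hm Q hQ
  have huo' : Q.ord ((AlgHom.snd k Fk₁ Fk₂) (pairRed N.S₁ N.S₂ u))
      = -(((N.m₁ + 1 : ℕ) : ℤ) * N.R₂ Q) := huo
  exact (T.pushHyp₂ Q hQ).mapDomain_D₀_eq (Nat.succ_pos _) hu
    (N.S₁.inv_mem_of_red_ne_zero hu1) (N.S₂.inv_mem_of_red_ne_zero hu2) hu2 huo'

end NodalType

end Fermat.Agent.BadRed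
end
end MergeWrap_Lib_BadRed_Nodal_Deuring2_PushTwo

section MergeWrap_Lib_BadRed_Nodal_Deuring2_PushOne -- from Lib/BadRed/Nodal/Deuring2/PushOne.lean

set_option autoImplicit false
set_option linter.style.haveILetI false
set_option linter.unusedSectionVars false

/-!
# Cluster T, WP N4, step S6: the auxiliary functions of the push statement

For a smooth point `Q` of the first component and `m ≥ N.m₁`:
* `NodalSeed.exists_exact_zero_of_le₁` : `e₀ ∈ L(m D₀) ∩ O₁ ∩ O₂` with `red₁ e₀ ≠ 0` of exact order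
  `- m R₁(Q)` at `Q` and `red₂ e₀ = 0`;
* `NodalSeed.exists_exact_unit_of_le₁` : a two-sided unit `u ∈ L(m D₀) ∩ O₁ ∩ O₂` with `red₁ u` of
  exact order `- m R₁(Q)` at `Q`;
* `NodalSeed.exists_exact_zero₁`, `NodalSeed.exists_exact_unit₁` : the same with `∃ m`;
and the same for the second component (`₂`).
-/

noncomputable section

open AlgebraicCurve Fermat.Agent.RR Fermat.Agent.Deuring

namespace Fermat.Agent.BadRed

variable {K F k Fk₁ Fk₂ : Type*} [Field K] [Field F] [Algebra K F]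
  [Field k] [Field Fk₁] [Algebra k Fk₁] [Field Fk₂] [Algebra k Fk₂]
  {ι : Type*} [Fintype ι] (N : NodalSeed K F k Fk₁ Fk₂ ι)

theorem NodalSeed.po_smul_apply₁ (m : ℕ) (Q : Place k Fk₁) :
    (m • N.R₁) Q = (m : ℤ) * N.R₁ Q := by
  rw [Finsupp.smul_apply, nsmul_eq_mul]

theorem NodalSeed.po_smul_apply₂ (m : ℕ) (Q : Place k Fk₂) :
    (m • N.R₂) Q = (m : ℤ) * N.R₂ Q := by
  rw [Finsupp.smul_apply, nsmul_eq_mul]

/-- a function of `L(m D₀) ∩ O₁ ∩ O₂` whose first reduction has exact order `- m R₁(Q)` at `Q`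
and whose second reduction vanishes. -/
theorem NodalSeed.exists_exact_zero_of_le₁ [Infinite k] {m : ℕ} (hm : N.m₁ ≤ m)
    (Q : Place k Fk₁) (hQ : ∀ i, Q ≠ N.s₁ i) :
    ∃ e₀ : F, N.toNodalCore.IsInt (m • N.D₀) e₀ ∧ N.S₁.red e₀ ≠ 0 ∧
      Q.ord (N.S₁.red e₀) = -((m : ℤ) * N.R₁ Q) ∧ N.S₂.red e₀ = 0 := by
  classical
  obtain ⟨a, ha, ha0, hac, haQ⟩ := exists_interpolation_exact N.S₁.hFk N.s₁ N.s₁_inj
    (m • N.R₁) (N.smul_R₁_node m) {Q}
    (fun Q' hQ' i => by rw [Finset.mem_singleton.mp hQ']; exact hQ i) (N.hdeg₁ hm) (fun _ => 0)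
  have hab : ((a, (0 : Fk₂)) : Fk₁ × Fk₂) ∈ nodalRR N.s₁ N.s₂ (m • N.R₁) (m • N.R₂) :=
    ⟨ha, Submodule.zero_mem _, fun i => ⟨0, hac i, valAt_zero _⟩⟩
  obtain ⟨e₀, he1, he2, he3, hea, heb⟩ := N.exists_lift (N.m₀_le_of_m₁_le hm) hab
  refine ⟨e₀, ⟨he1, he2, he3⟩, by rw [hea]; exact ha0, ?_, heb⟩
  rw [hea, haQ Q (Finset.mem_singleton_self Q), N.po_smul_apply₁]

/-- the same on the second component. -/
theorem NodalSeed.exists_exact_zero_of_le₂ [Infinite k] {m : ℕ} (hm : N.m₁ ≤ m)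
    (Q : Place k Fk₂) (hQ : ∀ i, Q ≠ N.s₂ i) :
    ∃ e₀ : F, N.toNodalCore.IsInt (m • N.D₀) e₀ ∧ N.S₂.red e₀ ≠ 0 ∧
      Q.ord (N.S₂.red e₀) = -((m : ℤ) * N.R₂ Q) ∧ N.S₁.red e₀ = 0 := by
  classical
  obtain ⟨b, hb, hb0, hbc, hbQ⟩ := exists_interpolation_exact N.S₂.hFk N.s₂ N.s₂_inj
    (m • N.R₂) (N.smul_R₂_node m) {Q}
    (fun Q' hQ' i => by rw [Finset.mem_singleton.mp hQ']; exact hQ i) (N.hdeg₂ hm) (fun _ => 0)
  have hab : (((0 : Fk₁), b) : Fk₁ × Fk₂) ∈ nodalRR N.s₁ N.s₂ (m • N.R₁) (m • N.R₂) :=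
    ⟨Submodule.zero_mem _, hb, fun i => ⟨0, valAt_zero _, hbc i⟩⟩
  obtain ⟨e₀, he1, he2, he3, hea, heb⟩ := N.exists_lift (N.m₀_le_of_m₁_le hm) hab
  refine ⟨e₀, ⟨he1, he2, he3⟩, by rw [heb]; exact hb0, ?_, hea⟩
  rw [heb, hbQ Q (Finset.mem_singleton_self Q), N.po_smul_apply₂]

/-- a two-sided unit of `L(m D₀) ∩ O₁ ∩ O₂` whose first reduction has exact order `- m R₁(Q)`
at `Q` (and the value `1` at the nodes). -/
theorem NodalSeed.exists_exact_unit_of_le₁ [Infinite k] {m : ℕ} (hm : N.m₁ ≤ m)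
    (Q : Place k Fk₁) (hQ : ∀ i, Q ≠ N.s₁ i) :
    ∃ u : F, N.toNodalCore.IsInt (m • N.D₀) u ∧ u ≠ 0 ∧ u⁻¹ ∈ N.S₁.Ov ∧ u⁻¹ ∈ N.S₂.Ov ∧
      N.S₁.red u ≠ 0 ∧ N.S₂.red u ≠ 0 ∧ Q.ord (N.S₁.red u) = -((m : ℤ) * N.R₁ Q) := by
  classical
  obtain ⟨a, ha, ha0, hac, haQ⟩ := exists_interpolation_exact N.S₁.hFk N.s₁ N.s₁_inj
    (m • N.R₁) (N.smul_R₁_node m) {Q}
    (fun Q' hQ' i => by rw [Finset.mem_singleton.mp hQ']; exact hQ i) (N.hdeg₁ hm) (fun _ => 1)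
  obtain ⟨b, hb, hb0, hbc, -⟩ := exists_interpolation_exact N.S₂.hFk N.s₂ N.s₂_inj
    (m • N.R₂) (N.smul_R₂_node m) ∅ (fun Q' hQ' => absurd hQ' (Finset.notMem_empty _))
    (N.hdeg₂ hm) (fun _ => 1)
  have hab : ((a, b) : Fk₁ × Fk₂) ∈ nodalRR N.s₁ N.s₂ (m • N.R₁) (m • N.R₂) :=
    ⟨ha, hb, fun i => ⟨1, hac i, hbc i⟩⟩
  obtain ⟨u, hu1, hu2, hu3, hua, hub⟩ := N.exists_lift (N.m₀_le_of_m₁_le hm) hab
  have h1 : N.S₁.red u ≠ 0 := by rw [hua]; exact ha0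
  have h2 : N.S₂.red u ≠ 0 := by rw [hub]; exact hb0
  refine ⟨u, ⟨hu1, hu2, hu3⟩, N.S₁.ne_zero_of_red_ne_zero h1, N.S₁.inv_mem_of_red_ne_zero h1,
    N.S₂.inv_mem_of_red_ne_zero h2, h1, h2, ?_⟩
  rw [hua, haQ Q (Finset.mem_singleton_self Q), N.po_smul_apply₁]

/-- the same on the second component. -/
theorem NodalSeed.exists_exact_unit_of_le₂ [Infinite k] {m : ℕ} (hm : N.m₁ ≤ m)
    (Q : Place k Fk₂) (hQ : ∀ i, Q ≠ N.s₂ i) :
    ∃ u : F, N.toNodalCore.IsInt (m • N.D₀) u ∧ u ≠ 0 ∧ u⁻¹ ∈ N.S₁.Ov ∧ u⁻¹ ∈ N.S₂.Ov ∧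
      N.S₁.red u ≠ 0 ∧ N.S₂.red u ≠ 0 ∧ Q.ord (N.S₂.red u) = -((m : ℤ) * N.R₂ Q) := by
  classical
  obtain ⟨b, hb, hb0, hbc, hbQ⟩ := exists_interpolation_exact N.S₂.hFk N.s₂ N.s₂_inj
    (m • N.R₂) (N.smul_R₂_node m) {Q}
    (fun Q' hQ' i => by rw [Finset.mem_singleton.mp hQ']; exact hQ i) (N.hdeg₂ hm) (fun _ => 1)
  obtain ⟨a, ha, ha0, hac, -⟩ := exists_interpolation_exact N.S₁.hFk N.s₁ N.s₁_inj
    (m • N.R₁) (N.smul_R₁_node m) ∅ (fun Q' hQ' => absurd hQ' (Finset.notMem_empty _))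
    (N.hdeg₁ hm) (fun _ => 1)
  have hab : ((a, b) : Fk₁ × Fk₂) ∈ nodalRR N.s₁ N.s₂ (m • N.R₁) (m • N.R₂) :=
    ⟨ha, hb, fun i => ⟨1, hac i, hbc i⟩⟩
  obtain ⟨u, hu1, hu2, hu3, hua, hub⟩ := N.exists_lift (N.m₀_le_of_m₁_le hm) hab
  have h1 : N.S₁.red u ≠ 0 := by rw [hua]; exact ha0
  have h2 : N.S₂.red u ≠ 0 := by rw [hub]; exact hb0
  refine ⟨u, ⟨hu1, hu2, hu3⟩, N.S₁.ne_zero_of_red_ne_zero h1, N.S₁.inv_mem_of_red_ne_zero h1,
    N.S₂.inv_mem_of_red_ne_zero h2, h1, h2, ?_⟩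
  rw [hub, hbQ Q (Finset.mem_singleton_self Q), N.po_smul_apply₂]

/-- `hexact` of `PushHyp.push_unit`, first component. -/
theorem NodalSeed.exists_exact_zero₁ [Infinite k] (Q : Place k Fk₁) (hQ : ∀ i, Q ≠ N.s₁ i) :
    ∃ (m : ℕ) (e₀ : F), N.toNodalCore.IsInt (m • N.D₀) e₀ ∧ N.S₁.red e₀ ≠ 0 ∧
      Q.ord (N.S₁.red e₀) = -(m * N.R₁ Q) ∧ N.S₂.red e₀ = 0 :=
  ⟨N.m₁, N.exists_exact_zero_of_le₁ le_rfl Q hQ⟩

/-- `hexact` of `PushHyp.push_unit`, second component. -/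
theorem NodalSeed.exists_exact_zero₂ [Infinite k] (Q : Place k Fk₂) (hQ : ∀ i, Q ≠ N.s₂ i) :
    ∃ (m : ℕ) (e₀ : F), N.toNodalCore.IsInt (m • N.D₀) e₀ ∧ N.S₂.red e₀ ≠ 0 ∧
      Q.ord (N.S₂.red e₀) = -(m * N.R₂ Q) ∧ N.S₁.red e₀ = 0 :=
  ⟨N.m₁, N.exists_exact_zero_of_le₂ le_rfl Q hQ⟩

/-- `exact₀` of `PushHyp`, first component: for `m ≥ N.m₁` an element of `V(m D₀)` whose first
component has exact order `- m R₁(Q)` at `Q`. -/
theorem NodalSeed.exists_exact_V₁ [Infinite k] (Q : Place k Fk₁) (hQ : ∀ i, Q ≠ N.s₁ i) :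
    ∃ m₁ : ℕ, ∀ m : ℕ, m₁ ≤ m → ∃ u ∈ N.toNodalCore.V (m • N.D₀),
      (AlgHom.fst k Fk₁ Fk₂) u ≠ 0 ∧ Q.ord ((AlgHom.fst k Fk₁ Fk₂) u) = -(m * N.R₁ Q) := by
  refine ⟨N.m₁, fun m hm => ?_⟩
  obtain ⟨u, hu, -, -, -, h1, -, h3⟩ := N.exists_exact_unit_of_le₁ hm Q hQ
  exact ⟨N.toNodalCore.red₂ u, N.toNodalCore.red₂_mem_V hu, h1, h3⟩

/-- `exact₀` of `PushHyp`, second component. -/
theorem NodalSeed.exists_exact_V₂ [Infinite k] (Q : Place k Fk₂) (hQ : ∀ i, Q ≠ N.s₂ i) :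
    ∃ m₁ : ℕ, ∀ m : ℕ, m₁ ≤ m → ∃ u ∈ N.toNodalCore.V (m • N.D₀),
      (AlgHom.snd k Fk₁ Fk₂) u ≠ 0 ∧ Q.ord ((AlgHom.snd k Fk₁ Fk₂) u) = -(m * N.R₂ Q) := by
  refine ⟨N.m₁, fun m hm => ?_⟩
  obtain ⟨u, hu, -, -, -, -, h2, h3⟩ := N.exists_exact_unit_of_le₂ hm Q hQ
  exact ⟨N.toNodalCore.red₂ u, N.toNodalCore.red₂_mem_V hu, h2, h3⟩

end Fermat.Agent.BadRed
end
end MergeWrap_Lib_BadRed_Nodal_Deuring2_PushOne

section MergeWrap_Lib_BadRed_Nodal_Deuring2_PushType -- from Lib/BadRed/Nodal/Deuring2/PushType.lean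

set_option autoImplicit false
set_option linter.unusedSectionVars false

/-!
# Cluster T, WP N4, step S6: the PUSH statements of a `NodalType` (helper18)

* `NodalType.push₁ : T.Push₁`, `NodalType.push₂ : T.Push₂` : for every unit `g` of `O₁` (of `O₂`)
  and every smooth point `Q` of the first (second) component,
  `(r_* div g)(Q) = ord_Q (red g)`.

Proof: `PushHyp.push_unit` (`PushUnit.lean`) with `NodalType.pushHyp₁/₂`, `NodalType.mapDomain_D₀₁/₂`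
(`PushTwo.lean`) and `NodalSeed.exists_exact_zero₁/₂` (`PushOne.lean`, helper80).
-/

noncomputable section

open AlgebraicCurve Fermat.Agent.RR Fermat.Agent.Deuring

namespace Fermat.Agent.BadRed

variable {K F k Fk₁ Fk₂ : Type*} [Field K] [Field F] [Algebra K F]
  [Field k] [Field Fk₁] [Algebra k Fk₁] [Field Fk₂] [Algebra k Fk₂] {ι : Type*} [Fintype ι]
  {N : NodalSeed K F k Fk₁ Fk₂ ι}

namespace NodalType

variable [Infinite k] (T : NodalType N)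

/-- **S6**, first component: the push statement for the units of `O₁`. -/
theorem push₁ : T.Push₁ := by
  intro f hf hfi hf0 Q hQ
  exact (T.pushHyp₁ Q hQ).push_unit N.S₁ N.S₂ (fun _ => Iff.rfl) (fun _ _ _ => rfl) N.A_eq
    N.arch N.D₀_nonneg (N.exists_exact_zero₁ Q hQ) (T.mapDomain_D₀₁ Q hQ).le hf hfi hf0

/-- **S6**, second component: the push statement for the units of `O₂`. -/
theorem push₂ : T.Push₂ := by
  intro f hf hfi hf0 Q hQ
  have arch₂ : ∀ c : K, c ∈ N.S₂.A → c⁻¹ ∉ N.S₂.A → ∀ d : K, ∃ j : ℕ, c ^ j * d ∈ N.S₂.A := by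
    rw [← N.A_eq]
    exact N.arch
  exact (T.pushHyp₂ Q hQ).push_unit N.S₂ N.S₁ (fun _ => and_comm) (fun _ _ _ => rfl) N.A_eq.symm
    arch₂ N.D₀_nonneg (N.exists_exact_zero₂ Q hQ) (T.mapDomain_D₀₂ Q hQ).le hf hfi hf0

end NodalType

end Fermat.Agent.BadRed
end
end MergeWrap_Lib_BadRed_Nodal_Deuring2_PushType

section MergeWrap_Lib_BadRed_Nodal_Deuring2_Type -- from Lib/BadRed/Nodal/Deuring2/Type.lean

set_option autoImplicit false
set_option linter.unusedSectionVars false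
set_option linter.style.haveILetI false

/-!
# Cluster T, WP N4: the reduction map of a seed, ASSEMBLY of `NodalType`  (helper79)

`N.nodalType : NodalType N` with `r = N.rmap` (`TypeB.lean`, S2), all the characteristic
properties from `TypeDual.lean` (S3, helper80).  Blueprint: `NOTES/blueprint-T-N4.md`.
-/

noncomputable section

open AlgebraicCurve Fermat.Agent.RR Fermat.Agent.Deuring

namespace Fermat.Agent.BadRed

variable {K F k Fk₁ Fk₂ : Type*} [Field K] [Field F] [Algebra K F]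
  [Field k] [Field Fk₁] [Algebra k Fk₁] [Field Fk₂] [Algebra k Fk₂]
  {ι : Type*} [Fintype ι]

/-- **The reduction map of places** attached to a seed, with its characteristic properties. -/
def NodalSeed.nodalType [Infinite k] (N : NodalSeed K F k Fk₁ Fk₂ ι) : NodalType N where
  r := N.rmap
  r_ne_node₁ := fun P i h => by
    obtain ⟨f, hf, hne, hord⟩ := NodalSeed.rmap_eq_inl_iff.mp h
    exact N.td_ne_node₁ hf hne hord i rfl
  r_ne_node₂ := fun P i h => by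
    obtain ⟨f, hf, hne, hord⟩ := NodalSeed.rmap_eq_inr_iff.mp h
    exact N.td_ne_node₂ hf hne hord i rfl
  pole₁ := fun P Q h => by
    obtain ⟨f, hf, hne, hord⟩ := NodalSeed.rmap_eq_inl_iff.mp h
    exact ⟨N.m₁, f, hf, hne, hord⟩
  pole₂ := fun P Q h => by
    obtain ⟨f, hf, hne, hord⟩ := NodalSeed.rmap_eq_inr_iff.mp h
    exact ⟨N.m₁, f, hf, hne, hord⟩
  zero₁ := fun P Q h => by
    obtain ⟨f, hf, hne, hord⟩ := NodalSeed.rmap_eq_inl_iff.mp h
    exact N.td_zero₁ hf hne hord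
  zero₂ := fun P Q h => by
    obtain ⟨f, hf, hne, hord⟩ := NodalSeed.rmap_eq_inr_iff.mp h
    exact N.td_zero₂ hf hne hord
  unit₁ := fun P Q hQ h => by
    rcases N.trichotomy le_rfl P with ⟨Q', hQ'⟩ | ⟨Q', hQ'⟩ | hN
    · obtain ⟨f, hf, hne, hord⟩ := hQ'
      have hQQ' : Q ≠ Q' := by
        rintro rfl
        exact h (NodalSeed.rmap_eq_inl_iff.mpr ⟨f, hf, hne, hord⟩)
      exact N.td_unit₁₁ hf hne hord Q hQ hQQ'
    · obtain ⟨f, hf, hne, hord⟩ := hQ'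
      exact N.td_unit₂₁ hf hne hord Q hQ
    · obtain ⟨f, hf, hf₁, hf₂, hn⟩ := hN
      exact N.td_unitN₁ hf hf₁ hf₂ hn Q hQ
  unit₂ := fun P Q hQ h => by
    rcases N.trichotomy le_rfl P with ⟨Q', hQ'⟩ | ⟨Q', hQ'⟩ | hN
    · obtain ⟨f, hf, hne, hord⟩ := hQ'
      exact N.td_unit₁₂ hf hne hord Q hQ
    · obtain ⟨f, hf, hne, hord⟩ := hQ'
      have hQQ' : Q ≠ Q' := by
        rintro rfl
        exact h (NodalSeed.rmap_eq_inr_iff.mpr ⟨f, hf, hne, hord⟩)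
      exact N.td_unit₂₂ hf hne hord Q hQ hQQ'
    · obtain ⟨f, hf, hf₁, hf₂, hn⟩ := hN
      exact N.td_unitN₂ hf hf₁ hf₂ hn Q hQ
  node_unit := fun P X h i => by
    rcases X with Q | Q
    · obtain ⟨f, hf, hne, hord⟩ := NodalSeed.rmap_eq_inl_iff.mp h
      exact N.td_node_unit₁ hf hne hord i
    · obtain ⟨f, hf, hne, hord⟩ := NodalSeed.rmap_eq_inr_iff.mp h
      exact N.td_node_unit₂ hf hne hord i
  supp := fun P hP => by
    rcases N.trichotomy le_rfl P with ⟨Q', hQ'⟩ | ⟨Q', hQ'⟩ | hN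
    · left
      obtain ⟨f, hf, hne, hord⟩ := hQ'
      exact ⟨Q', NodalSeed.rmap_eq_inl_iff.mpr ⟨f, hf, hne, hord⟩, N.td_supp₁ hP hf hne hord⟩
    · right
      obtain ⟨f, hf, hne, hord⟩ := hQ'
      exact ⟨Q', NodalSeed.rmap_eq_inr_iff.mpr ⟨f, hf, hne, hord⟩, N.td_supp₂ hP hf hne hord⟩
    · obtain ⟨f, hf, hf₁, hf₂, hn⟩ := hN
      exact absurd (N.td_suppN hP hf hf₁ hf₂ hn) id

@[simp]
theorem NodalSeed.nodalType_r [Infinite k] (N : NodalSeed K F k Fk₁ Fk₂ ι) :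
    N.nodalType.r = N.rmap := rfl

end Fermat.Agent.BadRed
end
end MergeWrap_Lib_BadRed_Nodal_Deuring2_Type

section MergeWrap_Lib_BadRed_Nodal_Deuring2_Export -- from Lib/BadRed/Nodal/Deuring2/Export.lean

set_option autoImplicit false

/-!
# Cluster T, WP N4: the exports of the nodal package of a seed (for an arbitrary `NodalType`)

For `T : NodalType N` with the push statements `h₁ : T.Push₁`, `h₂ : T.Push₂`:
* `NodalType.toNodalSetup_hasLift` : the lifting property (LIFT) of `NSBuildLift.lean`;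
* `NodalType.toNodalSetup_isInertial` : a semilinear automorphism which preserves both valuation
  rings, both reduction maps and the seed divisor `D₀` is inertial (`ToricKeyDef.lean`);
* `NodalType.toNodalSetup_supp` : the places of `supp D₀` reduce into `supp R₁ ∪ supp R₂`.
-/

noncomputable section

open AlgebraicCurve Fermat.Agent.RR Fermat.Agent.Deuring

namespace Fermat.Agent.BadRed

variable {K F k Fk₁ Fk₂ : Type*} [Field K] [Field F] [Algebra K F]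
  [Field k] [Field Fk₁] [Algebra k Fk₁] [Field Fk₂] [Algebra k Fk₂] {ι : Type*} [Fintype ι]
  {N : NodalSeed K F k Fk₁ Fk₂ ι}

/-- (LIFT) for the nodal package of a seed. -/
theorem NodalType.toNodalSetup_hasLift [Infinite k] (T : NodalType N) (h₁ : T.Push₁)
    (h₂ : T.Push₂) : (T.toNodalSetup h₁ h₂).HasLift N.D₀ N.R₁ N.R₂ :=
  ⟨N.m₀, fun _ hm _ _ hab => N.exists_lift hm hab⟩

/-- canonicity: semilinear automorphisms which are trivial on the special fibre and preserve the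
seed divisor are inertial. -/
theorem NodalType.toNodalSetup_isInertial [Infinite k] (T : NodalType N) (h₁ : T.Push₁)
    (h₂ : T.Push₂) (t : SemilinearAut K F)
    (hm₁ : ∀ f, f ∈ N.S₁.Ov → t • f ∈ N.S₁.Ov)
    (hr₁ : ∀ f, f ∈ N.S₁.Ov → N.S₁.red (t • f) = N.S₁.red f)
    (hm₂ : ∀ f, f ∈ N.S₂.Ov → t • f ∈ N.S₂.Ov)
    (hr₂ : ∀ f, f ∈ N.S₂.Ov → N.S₂.red (t • f) = N.S₂.red f)
    (hD : ∀ P, N.D₀ (t • P) = N.D₀ P) : (T.toNodalSetup h₁ h₂).IsInertial t where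
  mem₁ := hm₁
  red₁ := hr₁
  mem₂ := hm₂
  red₂ := hr₂
  r_smul := T.r_smul t hm₁ hr₁ hm₂ hr₂ hD

/-- (SUPP): the places of the support of `D₀` reduce into the supports of `R₁`, `R₂`. -/
theorem NodalType.toNodalSetup_supp [Infinite k] (T : NodalType N) (h₁ : T.Push₁)
    (h₂ : T.Push₂) (P : Place K F) (hP : N.D₀ P ≠ 0) :
    (∃ Q, (T.toNodalSetup h₁ h₂).r P = some (Sum.inl Q) ∧ N.R₁ Q ≠ 0) ∨
      (∃ Q, (T.toNodalSetup h₁ h₂).r P = some (Sum.inr Q) ∧ N.R₂ Q ≠ 0) :=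
  T.supp P hP

end Fermat.Agent.BadRed
end
end MergeWrap_Lib_BadRed_Nodal_Deuring2_Export

section MergeWrap_Lib_BadRed_Nodal_Gluing_ToricKeyOfLift -- from Lib/BadRed/Nodal/Gluing/ToricKeyOfLift.lean

set_option autoImplicit false

/-!
# Cluster T: wiring of N2 (nodal key lemma) and N3 (gluing)

For a nodal reduction package `N` with the genus relation and the lifting property (LIFT)
(`N.HasLift D₀ R₁ R₂`, exported by the nodal Deuring construction N4):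

* `keyConclusion_of_lift`, `keyConcl_of_lift` : the conclusion of the nodal KEY LEMMA;
* `abstractToricKey_of_lift` : `AbstractToricKeyStatement N` (inertia acts trivially on the toric
  part), the statement consumed by `Bridge/Assembly`;
* `frobLike_of_lift` : the Frobenius-like version `u ^ n * g ^ Q = c * (t • g)` (for S35).
-/

noncomputable section

open AlgebraicCurve Fermat.Agent.RR Fermat.Agent.Deuring

namespace Fermat.Agent.BadRed.Gluing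

variable {K F k Fk₁ Fk₂ ι : Type*} [Field K] [Field F] [Algebra K F]
  [Field k] [Field Fk₁] [Algebra k Fk₁] [Field Fk₂] [Algebra k Fk₂]

/-- the key lemma from a `NodalNS`. -/
theorem keyConclusion_of_nodalNS (N : NodalSetup K F k Fk₁ Fk₂ ι)
    (h : Nonempty (NodalNS N (genusFF K F))) : KeyConclusion N :=
  NJ.nodalKeyOfNS N h

/-- the key lemma from a `NodalNS`, in the form used by `Gluing/Main.lean`. -/
theorem keyConcl_of_nodalNS (N : NodalSetup K F k Fk₁ Fk₂ ι)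
    (h : Nonempty (NodalNS N (genusFF K F))) : KeyConcl N :=
  NJ.nodalKeyOfNS N h

/-- `AbstractToricKeyStatement` from a `NodalNS` (given the genus relation). -/
theorem abstractToricKey_of_nodalNS [Fintype ι] [Infinite k] (N : NodalSetup K F k Fk₁ Fk₂ ι)
    (h : N.GenusRel → Nonempty (NodalNS N (genusFF K F))) : AbstractToricKeyStatement N :=
  fun hrel =>
    abstractToricKey_of_ordinary N (keyConclusion_of_nodalNS N (h hrel)) (exists_ordinary_rep N)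
      hrel

section Lift

variable [IsAlgClosed k] [Fintype ι] [Nonempty ι] (N : NodalSetup K F k Fk₁ Fk₂ ι)
  (D₀ : Divisor K F) (R₁ : Divisor k Fk₁) (R₂ : Divisor k Fk₂)

/-- the conclusion of the nodal key lemma from (LIFT) and the genus relation. -/
theorem keyConclusion_of_lift (hg : N.GenusRel)
    (hR₁ : 0 < Divisor.degree R₁) (hR₂ : 0 < Divisor.degree R₂)
    (hn₁ : ∀ i, R₁ (N.s₁ i) = 0) (hn₂ : ∀ i, R₂ (N.s₂ i) = 0)
    (hlift : N.HasLift D₀ R₁ R₂) : KeyConclusion N :=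
  keyConclusion_of_nodalNS N (N.nonempty_nodalNS_of_lift hg D₀ R₁ R₂ hR₁ hR₂ hn₁ hn₂ hlift)

/-- the same, in the form used by `Gluing/Main.lean`. -/
theorem keyConcl_of_lift (hg : N.GenusRel)
    (hR₁ : 0 < Divisor.degree R₁) (hR₂ : 0 < Divisor.degree R₂)
    (hn₁ : ∀ i, R₁ (N.s₁ i) = 0) (hn₂ : ∀ i, R₂ (N.s₂ i) = 0)
    (hlift : N.HasLift D₀ R₁ R₂) : KeyConcl N :=
  keyConcl_of_nodalNS N (N.nonempty_nodalNS_of_lift hg D₀ R₁ R₂ hR₁ hR₂ hn₁ hn₂ hlift)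

/-- **N2 + N3**: inertial automorphisms act trivially on the toric part, from (LIFT). -/
theorem abstractToricKey_of_lift
    (hR₁ : 0 < Divisor.degree R₁) (hR₂ : 0 < Divisor.degree R₂)
    (hn₁ : ∀ i, R₁ (N.s₁ i) = 0) (hn₂ : ∀ i, R₂ (N.s₂ i) = 0)
    (hlift : N.HasLift D₀ R₁ R₂) : AbstractToricKeyStatement N := by
  haveI : Infinite k := IsAlgClosed.instInfinite
  exact abstractToricKey_of_nodalNS N
    (fun hg => N.nonempty_nodalNS_of_lift hg D₀ R₁ R₂ hR₁ hR₂ hn₁ hn₂ hlift)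

/-- **N2 + N3, Frobenius-like version**: `u ^ n * g ^ Q = c * (t • g)` for the Kummer generator
`g` of a `W₀`-divisor, from (LIFT). -/
theorem frobLike_of_lift (hg : N.GenusRel)
    (hR₁ : 0 < Divisor.degree R₁) (hR₂ : 0 < Divisor.degree R₂)
    (hn₁ : ∀ i, R₁ (N.s₁ i) = 0) (hn₂ : ∀ i, R₂ (N.s₂ i) = 0)
    (hlift : N.HasLift D₀ R₁ R₂) {n : ℕ} (hn0 : (n : K) ≠ 0) (hnA : ((n : K))⁻¹ ∈ N.S₁.A)
    {t : SemilinearAut K F} {Q : ℕ} {τ₁ : Fk₁ →+* Fk₁} {τ₂ : Fk₂ →+* Fk₂}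
    (ht : IsFrobLike N t Q τ₁ τ₂) (d : GData N n) :
    ∃ (u : F) (c : K), c ≠ 0 ∧ u ^ n * d.g ^ Q = algebraMap K F c * (t • d.g) := by
  haveI : Infinite k := IsAlgClosed.instInfinite
  exact exists_pow_mul_eq_smul (keyConcl_of_lift N D₀ R₁ R₂ hg hR₁ hR₂ hn₁ hn₂ hlift) hg hn0 hnA
    ht d

end Lift

end Fermat.Agent.BadRed.Gluing
end
end MergeWrap_Lib_BadRed_Nodal_Gluing_ToricKeyOfLift

section MergeWrap_Lib_BadRed_Nodal_Deuring2_Main -- from Lib/BadRed/Nodal/Deuring2/Main.lean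

set_option autoImplicit false

/-!
# Cluster T, WP N4: MAIN THEOREM of the nodal Deuring construction (SEED ⇒ NodalSetup)

For a seed `N : NodalSeed K F k Fk₁ Fk₂ ι` (`Seed.lean`), `k` infinite:

* `N.nodalSetup : NodalSetup K F k Fk₁ Fk₂ ι` : the nodal reduction package, with the SAME
  `S₁ S₂ s₁ s₂` (definitionally) and `r = N.rmap`;
* `N.nodalSetup_genusRel` : the genus relation `g + 1 = g₁ + g₂ + s`;
* `N.nodalSetup_hasLift` : the lifting property (LIFT);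
* `N.nodalSetup_supp` : the places of `supp D₀` reduce into `supp R₁ ∪ supp R₂`;
* `N.nodalSetup_isInertial` : canonicity (automorphisms trivial on the special fibre which
  preserve `D₀` are inertial);
* `N.abstractToricKey` : `AbstractToricKeyStatement N.nodalSetup` (N2 + N3 applied to N4).

Unconditional (no hypothesis besides the seed); all the pieces are in `Deuring2/*.lean`.
-/

noncomputable section

open AlgebraicCurve Fermat.Agent.RR Fermat.Agent.Deuring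

namespace Fermat.Agent.BadRed

variable {K F k Fk₁ Fk₂ : Type*} [Field K] [Field F] [Algebra K F]
  [Field k] [Field Fk₁] [Algebra k Fk₁] [Field Fk₂] [Algebra k Fk₂] {ι : Type*} [Fintype ι]

/-- **The nodal reduction package of a seed.** -/
def NodalSeed.nodalSetup [Infinite k] (N : NodalSeed K F k Fk₁ Fk₂ ι) :
    NodalSetup K F k Fk₁ Fk₂ ι :=
  N.nodalType.toNodalSetup N.nodalType.push₁ N.nodalType.push₂

section

variable [Infinite k] (N : NodalSeed K F k Fk₁ Fk₂ ι)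

@[simp] theorem NodalSeed.nodalSetup_S₁ : N.nodalSetup.S₁ = N.S₁ := rfl

@[simp] theorem NodalSeed.nodalSetup_S₂ : N.nodalSetup.S₂ = N.S₂ := rfl

@[simp] theorem NodalSeed.nodalSetup_s₁ : N.nodalSetup.s₁ = N.s₁ := rfl

@[simp] theorem NodalSeed.nodalSetup_s₂ : N.nodalSetup.s₂ = N.s₂ := rfl

@[simp] theorem NodalSeed.nodalSetup_r : N.nodalSetup.r = N.rmap := rfl

/-- the genus relation. -/
theorem NodalSeed.nodalSetup_genusRel : N.nodalSetup.GenusRel :=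
  N.genus_eq

/-- (LIFT). -/
theorem NodalSeed.nodalSetup_hasLift : N.nodalSetup.HasLift N.D₀ N.R₁ N.R₂ :=
  N.nodalType.toNodalSetup_hasLift _ _

/-- (SUPP). -/
theorem NodalSeed.nodalSetup_supp (P : Place K F) (hP : N.D₀ P ≠ 0) :
    (∃ Q, N.nodalSetup.r P = some (Sum.inl Q) ∧ N.R₁ Q ≠ 0) ∨
      (∃ Q, N.nodalSetup.r P = some (Sum.inr Q) ∧ N.R₂ Q ≠ 0) :=
  N.nodalType.toNodalSetup_supp _ _ P hP

/-- canonicity. -/
theorem NodalSeed.nodalSetup_isInertial (t : SemilinearAut K F)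
    (hm₁ : ∀ f, f ∈ N.S₁.Ov → t • f ∈ N.S₁.Ov)
    (hr₁ : ∀ f, f ∈ N.S₁.Ov → N.S₁.red (t • f) = N.S₁.red f)
    (hm₂ : ∀ f, f ∈ N.S₂.Ov → t • f ∈ N.S₂.Ov)
    (hr₂ : ∀ f, f ∈ N.S₂.Ov → N.S₂.red (t • f) = N.S₂.red f)
    (hD : ∀ P, N.D₀ (t • P) = N.D₀ P) : N.nodalSetup.IsInertial t :=
  N.nodalType.toNodalSetup_isInertial _ _ t hm₁ hr₁ hm₂ hr₂ hD

end

/-- **N2 + N3 + N4**: inertial automorphisms act trivially on the toric part of the nodal
package of a seed. -/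
theorem NodalSeed.abstractToricKey [IsAlgClosed k] [Infinite k] [Nonempty ι]
    (N : NodalSeed K F k Fk₁ Fk₂ ι) : AbstractToricKeyStatement N.nodalSetup :=
  Gluing.abstractToricKey_of_lift N.nodalSetup (D₀ := N.D₀) (R₁ := N.R₁) (R₂ := N.R₂)
    N.R₁_pos N.R₂_pos N.R₁_node N.R₂_node N.nodalSetup_hasLift

end Fermat.Agent.BadRed
end
end MergeWrap_Lib_BadRed_Nodal_Deuring2_Main
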